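import Mathlib
import Fermat.Prelude.Thm_Algebra_finite_maximalSpectrum_and_bijective_localization_of_module_finite

/-!
The part of a finite module over a complete local ring at a maximal ideal of an algebra acting on
it, as a natural direct summand.
-/

set_option autoImplicit false

namespace FermatAgent.RTLift.Modules

variable {R : Type} [CommRing R] {Λ : Type*} [CommRing Λ] [Algebra R Λ] {H : Type}
  [AddCommGroup H] [Module Λ H] [Module R H] [IsScalarTower R Λ H] {𝕋 : Type} [CommRing 𝕋]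
  [Algebra R 𝕋]

variable (ρ : 𝕋 →ₐ[R] Module.End Λ H) (m : Ideal 𝕋)

/-- The part of `H` at `m`: the common image of all elements outside `m`. -/
def part : Submodule Λ H := ⨅ s : 𝕋, ⨅ (_ : s ∉ m), LinearMap.range (ρ s)

theorem mem_part_iff {x : H} : x ∈ part ρ m ↔ ∀ s ∉ m, ∃ y, ρ s y = x := by
  simp [part, Submodule.mem_iInf]

/-- An element outside `m` acting as the projection onto the part at `m`. -/
structure IsProjector (s₀ : 𝕋) : Prop where
  not_mem : s₀ ∉ m
  idem : ρ s₀ * ρ s₀ = ρ s₀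
  factor : ∀ s ∉ m, ∃ t, ρ (s * t) = ρ s₀

namespace IsProjector

variable {ρ m} {s₀ : 𝕋} (hs : IsProjector ρ m s₀)
include hs

theorem apply_idem (x : H) : ρ s₀ (ρ s₀ x) = ρ s₀ x := LinearMap.congr_fun hs.idem x

theorem range_eq : LinearMap.range (ρ s₀) = part ρ m := by
  refine le_antisymm ?_ fun x hx ↦ ?_
  · rintro _ ⟨x, rfl⟩
    rw [mem_part_iff]
    intro s hsm
    obtain ⟨t, ht⟩ := hs.factor s hsm
    exact ⟨ρ t x, by rw [← Module.End.mul_apply, ← map_mul, ht]⟩
  · exact LinearMap.mem_range.mpr ((mem_part_iff ρ m).mp hx s₀ hs.not_mem)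

theorem apply_mem (x : H) : ρ s₀ x ∈ part ρ m := by
  rw [← hs.range_eq]
  exact LinearMap.mem_range_self _ x

theorem apply_of_mem {x : H} (hx : x ∈ part ρ m) : ρ s₀ x = x := by
  rw [← hs.range_eq] at hx
  obtain ⟨y, rfl⟩ := hx
  exact hs.apply_idem y

/-- An element outside `m` kills exactly zero in the part at `m`. -/
theorem eq_zero_of_mem {x : H} (hx : x ∈ part ρ m) {s : 𝕋} (hsm : s ∉ m) (h0 : ρ s x = 0) :
    x = 0 := by
  obtain ⟨t, ht⟩ := hs.factor s hsm
  rw [← hs.apply_of_mem hx, ← ht, mul_comm, map_mul, Module.End.mul_apply, h0, map_zero]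

/-- The part is a projective module when the module is. -/
theorem projective_part [Module.Projective Λ H] : Module.Projective Λ (part ρ m) :=
  Module.Projective.of_split (part ρ m).subtype ((ρ s₀).codRestrict _ hs.apply_mem)
    (LinearMap.ext fun x ↦ Subtype.ext (hs.apply_of_mem x.2))

/-- A `Λ`-combination lying in the part is a combination of elements of the part. -/
theorem mem_smul_part (I : Ideal Λ) {x : H} (hx : x ∈ part ρ m)
    (hxI : x ∈ I • (⊤ : Submodule Λ H)) : x ∈ I • part ρ m := by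
  have h := Submodule.mem_map_of_mem (f := ρ s₀) hxI
  rw [Submodule.map_smul'', hs.apply_of_mem hx] at h
  refine Submodule.smul_mono le_rfl ?_ h
  rw [Submodule.map_top, hs.range_eq]

end IsProjector

section Maps

variable {H' : Type} [AddCommGroup H'] [Module Λ H'] [Module R H'] [IsScalarTower R Λ H']
  {ρ m} {ρ' : 𝕋 →ₐ[R] Module.End Λ H'} (f : H →ₗ[Λ] H') (hf : ∀ s x, f (ρ s x) = ρ' s (f x))
include hf

theorem map_mem_part {x : H} (hx : x ∈ part ρ m) : f x ∈ part ρ' m := by
  rw [mem_part_iff] at hx ⊢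
  intro s hs
  obtain ⟨y, rfl⟩ := hx s hs
  exact ⟨f y, (hf s y).symm⟩

theorem map_part_of_surjective {s₀ : 𝕋} (h' : IsProjector ρ' m s₀) {t₀ : 𝕋}
    (h : IsProjector ρ m t₀) (hsurj : Function.Surjective f) :
    (part ρ m).map f = part ρ' m := by
  refine le_antisymm ?_ fun y hy ↦ ?_
  · rintro _ ⟨x, hx, rfl⟩
    exact map_mem_part f hf hx
  · obtain ⟨x, rfl⟩ := hsurj y
    refine ⟨ρ t₀ x, h.apply_mem x, ?_⟩
    have hk : ρ t₀ (x - ρ t₀ x) = 0 := by rw [map_sub, h.apply_idem, sub_self]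
    have h0 := congrArg f hk
    rw [hf, map_zero] at h0
    have h1 : f (x - ρ t₀ x) ∈ part ρ' m := by
      rw [map_sub]
      exact sub_mem hy (map_mem_part f hf (h.apply_mem x))
    have h2 := h'.eq_zero_of_mem h1 h.not_mem h0
    rw [map_sub, sub_eq_zero] at h2
    exact h2.symm

end Maps

section Exists

variable [IsLocalRing R] [IsNoetherianRing R]
  [IsAdicComplete (IsLocalRing.maximalIdeal R) R] [Module.Finite R H]

theorem exists_isProjector [hm : m.IsMaximal] : ∃ s₀, IsProjector ρ m s₀ := by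
  classical
  by_cases hker : RingHom.ker ρ ≤ m
  swap
  · obtain ⟨s₀, hs, hsm⟩ := SetLike.not_le_iff_exists.mp hker
    have h0 : ρ s₀ = 0 := hs
    exact ⟨s₀, hsm, by simp [h0], fun s _ ↦ ⟨s₀, by simp [h0]⟩⟩
  let K : Ideal 𝕋 := RingHom.ker ρ
  have hfin : Module.Finite R (Module.End R H) := inferInstance
  have : IsNoetherian R (Module.End R H) := isNoetherian_of_isNoetherianRing_of_finite R _
  have : Module.Finite R (𝕋 ⧸ K) :=
    Module.Finite.of_injective
      ((LinearMap.restrictScalarsₗ R Λ H H R).comp (Ideal.kerLiftAlg ρ).toLinearMap)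
      ((LinearMap.restrictScalars_injective R).comp (Ideal.kerLiftAlg_injective ρ))
  obtain ⟨-, hbij, -, -⟩ :=
    Algebra.finite_maximalSpectrum_and_bijective_localization_of_module_finite (𝒪 := R) (𝕋 ⧸ K)
  have hKm : K ≤ m := hker
  have hP : (m.map (Ideal.Quotient.mk K)).IsMaximal :=
    Ideal.IsMaximal.map_of_surjective_of_ker_le Ideal.Quotient.mk_surjective
      (by rw [Ideal.mk_ker]; exact hKm)
  let P : MaximalSpectrum (𝕋 ⧸ K) := ⟨_, hP⟩
  have hcomap : ∀ s, Ideal.Quotient.mk K s ∈ P.asIdeal ↔ s ∈ m := fun s ↦ by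
    rw [← Ideal.mem_comap, Ideal.comap_map_of_surjective _ Ideal.Quotient.mk_surjective,
      ← RingHom.ker_eq_comap_bot, Ideal.mk_ker, sup_eq_left.mpr hKm]
  obtain ⟨e, he⟩ := hbij.2 (Pi.single P 1)
  obtain ⟨s₀, rfl⟩ := Ideal.Quotient.mk_surjective e
  have hsame : ∀ a b : 𝕋, Ideal.Quotient.mk K a = Ideal.Quotient.mk K b → ρ a = ρ b :=
    fun a b hab ↦ by
      have := congrArg (Ideal.kerLiftAlg ρ) hab
      simpa [K, Ideal.kerLiftAlg_mk] using this
  refine ⟨s₀, ?_, ?_, fun s hsm ↦ ?_⟩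
  · intro hmem
    have h1 : algebraMap (𝕋 ⧸ K) (Localization.AtPrime P.asIdeal) (Ideal.Quotient.mk K s₀) = 1 :=
      (congrFun he P).trans (Pi.single_eq_same P 1)
    have h2 := (IsLocalization.AtPrime.to_map_mem_maximal_iff (Localization.AtPrime P.asIdeal)
      P.asIdeal (Ideal.Quotient.mk K s₀)).mpr ((hcomap s₀).mpr hmem)
    rw [h1] at h2
    exact (IsLocalRing.maximalIdeal.isMaximal _).ne_top ((Ideal.eq_top_iff_one _).mpr h2)
  · rw [← map_mul]
    refine hsame _ _ (hbij.1 ?_)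
    rw [map_mul, map_mul, he, ← Pi.single_mul, mul_one]
  · have hu : IsUnit (algebraMap (𝕋 ⧸ K) (Localization.AtPrime P.asIdeal) (Ideal.Quotient.mk K s)) :=
      IsLocalization.map_units _ (⟨_, fun h ↦ hsm ((hcomap s).mp h)⟩ : P.asIdeal.primeCompl)
    obtain ⟨a, ha⟩ := hbij.2 (Pi.single P ((hu.unit⁻¹ : _) : Localization.AtPrime P.asIdeal))
    obtain ⟨t, rfl⟩ := Ideal.Quotient.mk_surjective a
    refine ⟨t, hsame _ _ (hbij.1 ?_)⟩
    rw [map_mul, map_mul, ha, he]
    funext I
    rcases eq_or_ne I P with rfl | hI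
    · rw [Pi.mul_apply, Pi.single_eq_same, Pi.single_eq_same]
      exact hu.mul_val_inv
    · rw [Pi.mul_apply, Pi.single_eq_of_ne hI, Pi.single_eq_of_ne hI, mul_zero]

end Exists

end FermatAgent.RTLift.Modules
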