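import Mathlib
import Fermat.Agent.RTLift.Modules.LocalPart

/-!
Projectivity of a local part: a quotient of a projective module by a submodule on which one
operator is a scalar outside the maximal ideal.
-/

set_option autoImplicit false

namespace FermatAgent.RTLift.Modules

open Polynomial

variable {R : Type} [CommRing R] [IsLocalRing R] [IsNoetherianRing R]
  [IsAdicComplete (IsLocalRing.maximalIdeal R) R] {Λ : Type*} [CommRing Λ] [Algebra R Λ]
  {H : Type} [AddCommGroup H] [Module Λ H] [Module R H] [IsScalarTower R Λ H]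
  {𝕋 : Type} [CommRing 𝕋] [Algebra R 𝕋]

omit [IsLocalRing R] [IsNoetherianRing R] [IsAdicComplete (IsLocalRing.maximalIdeal R) R] in
theorem isMaximal_comap_aeval (m : Ideal 𝕋) [m.IsMaximal]
    (hres : ∀ s : 𝕋, ∃ r : R, s - algebraMap R 𝕋 r ∈ m) (t : 𝕋) :
    (m.comap (aeval t : R[X] →ₐ[R] 𝕋)).IsMaximal := by
  let := Ideal.Quotient.field m
  have hsurj : Function.Surjective
      ((Ideal.Quotient.mk m).comp (aeval t : R[X] →ₐ[R] 𝕋).toRingHom) := fun x ↦ by
    obtain ⟨s, rfl⟩ := Ideal.Quotient.mk_surjective x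
    obtain ⟨r, hr⟩ := hres s
    exact ⟨C r, by simpa using ((Ideal.Quotient.mk_eq_mk_iff_sub_mem _ _).mpr hr).symm⟩
  have h : m.comap (aeval t : R[X] →ₐ[R] 𝕋) =
      RingHom.ker ((Ideal.Quotient.mk m).comp (aeval t : R[X] →ₐ[R] 𝕋).toRingHom) := by
    rw [← RingHom.comap_ker, Ideal.mk_ker]
    rfl
  rw [h]
  exact RingHom.ker_isMaximal_of_surjective _ hsurj

/-- The part at `m` is projective when `H` is a quotient of a projective module by vectors on
which a single operator is a scalar `c` with `t - c ∉ m`. -/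
theorem projective_part_of_quotient {Z : Type} [AddCommGroup Z] [Module Λ Z] [Module R Z]
    [IsScalarTower R Λ Z] [Module.Finite R Z] [Module.Projective Λ Z]
    (ρ : 𝕋 →ₐ[R] Module.End Λ H) (m : Ideal 𝕋) [m.IsMaximal]
    (hres : ∀ s : 𝕋, ∃ r : R, s - algebraMap R 𝕋 r ∈ m)
    (π : Z →ₗ[Λ] H) (hπ : Function.Surjective π) (τ : Module.End Λ Z) (t : 𝕋) (c : R)
    (hτ : ∀ z, π (τ z) = ρ t (π z)) (hker : ∀ z, π z = 0 → τ z = c • z)
    (hc : t - algebraMap R 𝕋 c ∉ m) :
    Module.Projective Λ (part ρ m) := by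
  have : Module.Finite R H := Module.Finite.of_surjective (π.restrictScalars R) hπ
  set σ : R[X] →ₐ[R] 𝕋 := aeval t with hσ
  have := isMaximal_comap_aeval m hres t
  set ρZ : R[X] →ₐ[R] Module.End Λ Z := aeval τ with hρZ
  set ρH : R[X] →ₐ[R] Module.End Λ H := ρ.comp σ with hρH
  have hcompat : ∀ f : R[X], ∀ z, π (ρZ f z) = ρH f (π z) := by
    intro f
    induction f using Polynomial.induction_on' with
    | add a b ha hb => intro z; simp only [map_add, LinearMap.add_apply, ha, hb]
    | monomial n r =>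
      intro z
      simp only [ρZ, ρH, σ, AlgHom.comp_apply, aeval_monomial, map_mul, map_pow, AlgHom.commutes,
        Module.End.mul_apply, Module.algebraMap_end_apply]
      rw [LinearMap.map_smul_of_tower π r]
      congr 1
      clear r
      induction n generalizing z with
      | zero => simp
      | succ n ih => simp only [pow_succ, Module.End.mul_apply, ih, hτ]
  obtain ⟨u, hu⟩ := exists_isProjector ρZ (m.comap σ)
  obtain ⟨v, hv⟩ := exists_isProjector ρH (m.comap σ)
  obtain ⟨s₀, hs⟩ := exists_isProjector ρ m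
  have hproj := hu.projective_part
  have hinj : ∀ x ∈ part ρZ (m.comap σ), π x = 0 → x = 0 := fun x hx hx0 ↦ by
    refine hu.eq_zero_of_mem hx (s := X - C c) ?_ ?_
    · rw [Ideal.mem_comap, map_sub, aeval_X, aeval_C]
      exact hc
    · simp [ρZ, hker x hx0]
  have hsub : part ρ m ≤ (part ρZ (m.comap σ)).map π := by
    rw [map_part_of_surjective π hcompat hv hu hπ]
    intro x hx
    rw [mem_part_iff] at hx ⊢
    exact fun f hf ↦ hx (σ f) fun h ↦ hf (Ideal.mem_comap.mpr h)
  choose g hg hgπ using fun x : part ρ m ↦ hsub x.2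
  let lift : part ρ m →ₗ[Λ] part ρZ (m.comap σ) :=
    { toFun := fun x ↦ ⟨g x, hg x⟩
      map_add' := fun x y ↦ Subtype.ext <| sub_eq_zero.mp <| hinj _
        (sub_mem (hg _) (add_mem (hg x) (hg y))) (by simp [hgπ])
      map_smul' := fun a x ↦ Subtype.ext <| sub_eq_zero.mp <| hinj _
        (sub_mem (hg _) ((part ρZ (m.comap σ)).smul_mem a (hg x))) (by simp [hgπ]) }
  exact Module.Projective.of_split lift
    (((ρ s₀).codRestrict _ hs.apply_mem).comp (π.comp (part ρZ (m.comap σ)).subtype))
    (LinearMap.ext fun x ↦ Subtype.ext (by simp [lift, hgπ, hs.apply_of_mem x.2]))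

end FermatAgent.RTLift.Modules
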