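import Mathlib

/-!
Crossed homomorphisms for a scalar character, their coboundaries and first cohomology.
-/

set_option autoImplicit false

namespace FermatAgent.RTLift.Modules

variable {G : Type*} [Group G] {Λ : Type*} [CommRing Λ] (χ : G →* Λ)
  (A : Type*) [AddCommGroup A] [Module Λ A]

/-- Crossed homomorphisms `f (x * y) = f x + χ x • f y`. -/
def crossedHoms : Submodule Λ (G → A) where
  carrier := {f | ∀ x y, f (x * y) = f x + χ x • f y}
  add_mem' {f g} hf hg x y := by
    simp only [Pi.add_apply, hf x y, hg x y, smul_add]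
    abel
  zero_mem' x y := by simp
  smul_mem' c f hf x y := by
    simp only [Pi.smul_apply, hf x y, smul_add, smul_comm c (χ x)]

variable {χ A}

theorem crossed_mul (f : crossedHoms χ A) (x y : G) :
    (f : G → A) (x * y) = (f : G → A) x + χ x • (f : G → A) y := f.2 x y

@[simp] theorem crossed_one (f : crossedHoms χ A) : (f : G → A) 1 = 0 := by
  simpa using crossed_mul f 1 1

theorem crossed_inv (f : crossedHoms χ A) (x : G) :
    (f : G → A) x⁻¹ = -(χ x⁻¹ • (f : G → A) x) := by
  have h := crossed_mul f x⁻¹ x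
  rw [inv_mul_cancel, crossed_one] at h
  exact eq_neg_of_add_eq_zero_left h.symm

theorem crossed_neg_one_eq_zero {f : crossedHoms χ A} {z : G} (hz : z * z = 1) (hχ : χ z = 1)
    (h2 : IsUnit (2 : Λ)) : (f : G → A) z = 0 := by
  have h := crossed_mul f z z
  rw [hz, crossed_one, hχ, one_smul, ← two_smul Λ] at h
  exact h2.smul_eq_zero.mp h.symm

variable (χ A)

/-- The coboundary of a constant. -/
def coboundary : A →ₗ[Λ] crossedHoms χ A where
  toFun a := ⟨fun x ↦ χ x • a - a, fun x y ↦ by
    simp only [map_mul, smul_sub, mul_smul]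
    abel⟩
  map_add' a b := by
    refine Subtype.ext (funext fun x ↦ ?_)
    simp only [Submodule.coe_add, Pi.add_apply, smul_add]
    abel
  map_smul' c a := by
    refine Subtype.ext (funext fun x ↦ ?_)
    simp [smul_sub, smul_comm c (χ x)]

@[simp] theorem coboundary_apply (a : A) (x : G) :
    (coboundary χ A a : G → A) x = χ x • a - a := rfl

/-- First cohomology for the character `χ`. -/
abbrev H1 : Type _ := crossedHoms χ A ⧸ LinearMap.range (coboundary χ A)

variable {χ A} {B : Type*} [AddCommGroup B] [Module Λ B]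

/-- Functoriality in the coefficients. -/
def crossedMap (u : A →ₗ[Λ] B) : crossedHoms χ A →ₗ[Λ] crossedHoms χ B where
  toFun f := ⟨fun x ↦ u ((f : G → A) x), fun x y ↦ by simp [crossed_mul f x y]⟩
  map_add' f g := Subtype.ext (funext fun x ↦ by simp)
  map_smul' c f := Subtype.ext (funext fun x ↦ by simp)

@[simp] theorem crossedMap_apply (u : A →ₗ[Λ] B) (f : crossedHoms χ A) (x : G) :
    (crossedMap u f : G → B) x = u ((f : G → A) x) := rfl

theorem crossedMap_coboundary (u : A →ₗ[Λ] B) (a : A) :
    crossedMap u (coboundary χ A a) = coboundary χ B (u a) :=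
  Subtype.ext (funext fun x ↦ by simp)

/-- Functoriality of the first cohomology in the coefficients. -/
def h1Map (u : A →ₗ[Λ] B) : H1 χ A →ₗ[Λ] H1 χ B :=
  Submodule.mapQ _ _ (crossedMap u) (by
    rintro _ ⟨a, rfl⟩
    exact ⟨u a, (crossedMap_coboundary u a).symm⟩)

@[simp] theorem h1Map_mk (u : A →ₗ[Λ] B) (f : crossedHoms χ A) :
    h1Map u (Submodule.Quotient.mk f) = Submodule.Quotient.mk (crossedMap u f) := rfl

end FermatAgent.RTLift.Modules
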