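import Mathlib
import Fermat.Agent.RTLift.Modules.Crossed
import Fermat.Agent.Periods.TransferHom

/-!
Weighted correspondences between two subgroups of `SL(2, ℤ)` with characters, the operators they
induce on crossed homomorphisms and on first cohomology, composition, and independence of the
choice of representatives in cohomology.
-/

set_option autoImplicit false

namespace FermatAgent.RTLift.Modules

open scoped MatrixGroups

variable {Γ Γ' : Subgroup SL(2, ℤ)} {Λ : Type*} [CommRing Λ]

/-- The integral matrix of a group element. -/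
abbrev coeMat {H : Subgroup SL(2, ℤ)} (γ : H) : Matrix (Fin 2) (Fin 2) ℤ := ((γ : SL(2, ℤ)) : _)

theorem coeMat_mul {H : Subgroup SL(2, ℤ)} (γ η : H) : coeMat (γ * η) = coeMat γ * coeMat η := by
  simp [coeMat]

theorem coeMat_one {H : Subgroup SL(2, ℤ)} : coeMat (1 : H) = 1 := by simp [coeMat]

theorem coeMat_injective {H : Subgroup SL(2, ℤ)} : Function.Injective (coeMat (H := H)) :=
  fun _ _ h ↦ Subtype.ext (Subtype.ext h)

theorem coeMat_inv_mul {H : Subgroup SL(2, ℤ)} (g : H) (M : Matrix (Fin 2) (Fin 2) ℤ) :
    coeMat g⁻¹ * (coeMat g * M) = M := by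
  rw [← mul_assoc, ← coeMat_mul, inv_mul_cancel, coeMat_one, one_mul]

/-- A finite family of matrices, permuted up to left translation by `Γ` under right translation
by `Γ'`, with weights compatible with the characters. -/
structure CrossCorr (χ : Γ →* Λ) (χ' : Γ' →* Λ) (ι : Type*) where
  rep : ι → Matrix (Fin 2) (Fin 2) ℤ
  det_ne : ∀ i, (rep i).det ≠ 0
  weight : ι → Λ
  target : Γ' → ι → ι
  target_one : ∀ i, target 1 i = i
  target_mul : ∀ γ η i, target (γ * η) i = target η (target γ i)
  move : Γ' → ι → Γ
  move_spec : ∀ γ i, rep i * coeMat γ = coeMat (move γ i) * rep (target γ i)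
  weight_move : ∀ γ i, weight i * χ (move γ i) = χ' γ * weight (target γ i)

namespace CrossCorr

variable {χ : Γ →* Λ} {χ' : Γ' →* Λ} {ι : Type*} (D : CrossCorr χ χ' ι)

theorem move_eq_of {γ : Γ'} {i : ι} {δ : Γ}
    (h : D.rep i * coeMat γ = coeMat δ * D.rep (D.target γ i)) : D.move γ i = δ :=
  coeMat_injective (Periods.matrix_mul_right_cancel (D.det_ne _) ((D.move_spec γ i).symm.trans h))

theorem move_mul (γ η : Γ') (i : ι) :
    D.move (γ * η) i = D.move γ i * D.move η (D.target γ i) := by
  apply D.move_eq_of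
  rw [coeMat_mul, coeMat_mul, ← mul_assoc, D.move_spec, mul_assoc, D.move_spec, ← mul_assoc,
    D.target_mul]

theorem move_one (i : ι) : D.move 1 i = 1 := D.move_eq_of (by simp [coeMat_one, D.target_one])

/-- The permutation of the indices attached to an element of `Γ'`. -/
def targetEquiv (γ : Γ') : Equiv.Perm ι where
  toFun := D.target γ
  invFun := D.target γ⁻¹
  left_inv i := by rw [← D.target_mul, mul_inv_cancel, D.target_one]
  right_inv i := by rw [← D.target_mul, inv_mul_cancel, D.target_one]

@[simp] theorem targetEquiv_apply (γ : Γ') (i : ι) : D.targetEquiv γ i = D.target γ i := rfl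

/-- Representatives of pairwise different cosets. -/
def Sep : Prop := ∀ (δ : Γ) (i j : ι), D.rep i = coeMat δ * D.rep j → i = j

theorem target_eq_of (hD : D.Sep) {γ : Γ'} {i j : ι} {δ : Γ}
    (h : D.rep i * coeMat γ = coeMat δ * D.rep j) : D.target γ i = j := by
  apply hD ((D.move γ i)⁻¹ * δ)
  rw [coeMat_mul, mul_assoc, ← h, D.move_spec, ← mul_assoc, ← coeMat_mul, inv_mul_cancel,
    coeMat_one, one_mul]

section Apply

variable [Fintype ι] {A : Type*} [AddCommGroup A] [Module Λ A]

/-- The operator induced on crossed homomorphisms. -/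
def apply : crossedHoms χ A →ₗ[Λ] crossedHoms χ' A where
  toFun f := ⟨fun γ ↦ ∑ i, D.weight i • (f : Γ → A) (D.move γ i), fun γ η ↦ by
    simp only [D.move_mul, crossed_mul, smul_add, smul_smul, D.weight_move,
      Finset.sum_add_distrib]
    simp only [mul_smul, Finset.smul_sum]
    congr 1
    exact Equiv.sum_comp (D.targetEquiv γ)
      fun i ↦ χ' γ • D.weight i • (f : Γ → A) (D.move η i)⟩
  map_add' f g := Subtype.ext (funext fun γ ↦ by simp [Finset.sum_add_distrib])
  map_smul' c f := Subtype.ext (funext fun γ ↦ by simp [Finset.smul_sum, smul_comm c])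

theorem apply_apply (f : crossedHoms χ A) (γ : Γ') :
    (D.apply f : Γ' → A) γ = ∑ i, D.weight i • (f : Γ → A) (D.move γ i) := rfl

theorem apply_coboundary (a : A) :
    D.apply (coboundary χ A a) = coboundary χ' A ((∑ i, D.weight i) • a) := by
  refine Subtype.ext (funext fun γ ↦ ?_)
  simp only [apply_apply, coboundary_apply, smul_sub, smul_smul, D.weight_move,
    Finset.sum_sub_distrib, Finset.sum_smul]
  simp only [Finset.smul_sum, smul_smul]
  congr 1
  exact Equiv.sum_comp (D.targetEquiv γ) fun i ↦ (χ' γ * D.weight i) • a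

theorem apply_crossedMap {B : Type*} [AddCommGroup B] [Module Λ B] (u : A →ₗ[Λ] B)
    (f : crossedHoms χ A) : D.apply (crossedMap u f) = crossedMap u (D.apply f) :=
  Subtype.ext (funext fun γ ↦ by simp [apply_apply])

variable (A) in
/-- The operator induced on first cohomology. -/
def onH1 : H1 χ A →ₗ[Λ] H1 χ' A :=
  Submodule.mapQ _ _ D.apply (by
    rintro _ ⟨a, rfl⟩
    exact ⟨_, (D.apply_coboundary a).symm⟩)

@[simp] theorem onH1_mk (f : crossedHoms χ A) :
    D.onH1 A (Submodule.Quotient.mk f) = Submodule.Quotient.mk (D.apply f) := rfl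

theorem onH1_h1Map {B : Type*} [AddCommGroup B] [Module Λ B] (u : A →ₗ[Λ] B) (x : H1 χ A) :
    D.onH1 B (h1Map u x) = h1Map u (D.onH1 A x) := by
  induction x using Submodule.Quotient.induction_on with
  | H f => simp [D.apply_crossedMap]

end Apply

section Comp

variable {Γ'' : Subgroup SL(2, ℤ)} {χ'' : Γ'' →* Λ} {κ : Type*}

/-- Composition of correspondences. -/
def comp (E : CrossCorr χ' χ'' κ) (D : CrossCorr χ χ' ι) : CrossCorr χ χ'' (ι × κ) where
  rep x := D.rep x.1 * E.rep x.2
  det_ne x := by rw [Matrix.det_mul]; exact mul_ne_zero (D.det_ne _) (E.det_ne _)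
  weight x := D.weight x.1 * E.weight x.2
  target γ x := (D.target (E.move γ x.2) x.1, E.target γ x.2)
  target_one x := by simp [E.move_one, E.target_one, D.target_one]
  target_mul γ η x := by simp [E.move_mul, E.target_mul, D.target_mul]
  move γ x := D.move (E.move γ x.2) x.1
  move_spec γ x := by
    rw [mul_assoc, E.move_spec, ← mul_assoc, D.move_spec, mul_assoc]
  weight_move γ x := by
    rw [mul_right_comm, D.weight_move, mul_right_comm, mul_comm (χ' _), E.weight_move]
    ring

variable [Fintype ι] [Fintype κ] {A : Type*} [AddCommGroup A] [Module Λ A]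

theorem comp_apply (E : CrossCorr χ' χ'' κ) (D : CrossCorr χ χ' ι) (f : crossedHoms χ A) :
    (comp E D).apply f = E.apply (D.apply f) := by
  refine Subtype.ext (funext fun γ ↦ ?_)
  simp only [apply_apply, Finset.smul_sum, smul_smul, Fintype.sum_prod_type]
  rw [Finset.sum_comm]
  simp only [comp, mul_comm (E.weight _)]

theorem comp_onH1 (E : CrossCorr χ' χ'' κ) (D : CrossCorr χ χ' ι) (x : H1 χ A) :
    (comp E D).onH1 A x = E.onH1 A (D.onH1 A x) := by
  induction x using Submodule.Quotient.induction_on with
  | H f => simp [comp_apply]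

end Comp

section Equivalence

variable {κ : Type*} [Fintype ι] [Fintype κ] {A : Type*} [AddCommGroup A] [Module Λ A]

/-- Changing the representatives by elements of `Γ` does not change the operator on cohomology. -/
theorem onH1_eq (D' : CrossCorr χ χ' κ) (e : κ ≃ ι) (u : κ → Γ)
    (hrep : ∀ i, D'.rep i = coeMat (u i) * D.rep (e i))
    (hweight : ∀ i, D'.weight i * χ (u i) = D.weight (e i))
    (htarget : ∀ γ i, e (D'.target γ i) = D.target γ (e i)) :
    D'.onH1 A = D.onH1 A := by
  refine Submodule.linearMap_qext _ (LinearMap.ext fun f ↦ ?_)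
  simp only [LinearMap.comp_apply, Submodule.mkQ_apply, onH1_mk]
  rw [Submodule.Quotient.eq]
  refine ⟨-∑ i, D'.weight i • (f : Γ → A) (u i), Subtype.ext (funext fun γ ↦ ?_)⟩
  have key : ∀ i, D'.move γ i = u i * D.move γ (e i) * (u (D'.target γ i))⁻¹ := by
    intro i
    refine D'.move_eq_of ?_
    rw [coeMat_mul, coeMat_mul, hrep (D'.target γ i), mul_assoc, coeMat_inv_mul, htarget,
      mul_assoc, ← D.move_spec, hrep i, mul_assoc]
  have h1 : ∀ i, D'.weight i • (f : Γ → A) (D'.move γ i) =
      D'.weight i • (f : Γ → A) (u i) + D.weight (e i) • (f : Γ → A) (D.move γ (e i)) -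
        χ' γ • D'.weight (D'.target γ i) • (f : Γ → A) (u (D'.target γ i)) := by
    intro i
    rw [key i, crossed_mul, crossed_mul, crossed_inv, smul_add, smul_add, smul_neg, smul_neg,
      smul_smul, smul_smul, smul_smul, smul_smul, map_mul, hweight, ← sub_eq_add_neg]
    congr 2
    simp only [← mul_assoc]
    calc D'.weight i * χ (u i) * χ (D.move γ (e i)) * χ (u (D'.target γ i))⁻¹
        = D.weight (e i) * χ (D.move γ (e i)) * χ (u (D'.target γ i))⁻¹ := by rw [hweight]
      _ = χ' γ * (D.weight (e (D'.target γ i))) * χ (u (D'.target γ i))⁻¹ := by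
          rw [D.weight_move, htarget]
      _ = χ' γ * D'.weight (D'.target γ i) := by
          rw [← hweight, mul_assoc, mul_assoc, ← map_mul, mul_inv_cancel, map_one,
            mul_one]
  simp only [Submodule.coe_sub, Pi.sub_apply, coboundary_apply, apply_apply, h1,
    Finset.sum_sub_distrib, Finset.sum_add_distrib, smul_neg, Finset.smul_sum]
  rw [Equiv.sum_comp e fun i ↦ D.weight i • (f : Γ → A) (D.move γ i),
    ← Equiv.sum_comp (D'.targetEquiv γ)
      fun i ↦ χ' γ • D'.weight i • (f : Γ → A) (u i)]
  simp only [targetEquiv_apply]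
  abel

omit [Fintype ι] [Fintype κ] in
/-- For separated representatives the permutations correspond automatically. -/
theorem target_compat (hD : D.Sep) (D' : CrossCorr χ χ' κ) (e : κ → ι) (u : κ → Γ)
    (hrep : ∀ i, D'.rep i = coeMat (u i) * D.rep (e i)) (γ : Γ') (i : κ) :
    e (D'.target γ i) = D.target γ (e i) := by
  refine (D.target_eq_of hD (δ := (u i)⁻¹ * D'.move γ i * u (D'.target γ i)) ?_).symm
  rw [coeMat_mul, coeMat_mul, mul_assoc, ← hrep, mul_assoc, ← D'.move_spec, hrep i, mul_assoc,
    coeMat_inv_mul]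

end Equivalence

end CrossCorr

end FermatAgent.RTLift.Modules
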