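import Mathlib
import Fermat.Agent.RTLift.Modules.Corr
import Fermat.Agent.ModCurve.Group.PingPong

/-!
Crossed homomorphisms of a subgroup of finite index of `SL(2, ℤ)` as a natural retract of pairs of
functions on the cosets: cocycles on `SL(2, ℤ)` are given by their values at `S` and `T * S`.
-/

set_option autoImplicit false

namespace FermatAgent.RTLift.Modules

open scoped MatrixGroups
open ModularGroup FermatAgent.ModCurveGroup

variable {Γ : Subgroup SL(2, ℤ)} {Λ : Type*} [CommRing Λ] (χ : Γ →* Λ)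

/-- Cosets. -/
abbrev Pts (Γ : Subgroup SL(2, ℤ)) : Type := SL(2, ℤ) ⧸ Γ

/-- The base coset. -/
abbrev basePt (Γ : Subgroup SL(2, ℤ)) : Pts Γ := ((1 : SL(2, ℤ)) : Pts Γ)

open Classical in
/-- A representative of a coset, equal to `1` on the base coset. -/
noncomputable def cosRep (x : Pts Γ) : SL(2, ℤ) := if x = basePt Γ then 1 else x.out

theorem mk_cosRep (x : Pts Γ) : (cosRep x : Pts Γ) = x := by
  unfold cosRep
  split
  · rename_i h
    exact h.symm
  · exact QuotientGroup.out_eq' x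

theorem cosRep_base : cosRep (basePt Γ) = 1 := if_pos rfl

theorem xi_mem (g : SL(2, ℤ)) (x : Pts Γ) : (cosRep x)⁻¹ * g * cosRep (g⁻¹ • x) ∈ Γ := by
  rw [mul_assoc, ← QuotientGroup.eq, mk_cosRep,
    show ((g * cosRep (g⁻¹ • x) : SL(2, ℤ)) : Pts Γ) = g • ((cosRep (g⁻¹ • x) : SL(2, ℤ)) : Pts Γ)
      from rfl, mk_cosRep, smul_inv_smul]

/-- The cocycle of the cosets with values in `Γ`. -/
noncomputable def xi (g : SL(2, ℤ)) (x : Pts Γ) : Γ := ⟨_, xi_mem g x⟩

theorem xi_mul (g h : SL(2, ℤ)) (x : Pts Γ) : xi (g * h) x = xi g x * xi h (g⁻¹ • x) :=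
  Subtype.ext (by simp [xi, mul_smul, mul_assoc])

theorem xi_of_mem (γ : Γ) : xi (γ : SL(2, ℤ)) (basePt Γ) = γ := by
  have h : ((γ : SL(2, ℤ))⁻¹ • basePt Γ) = basePt Γ := by
    show (((γ : SL(2, ℤ))⁻¹ * 1 : SL(2, ℤ)) : Pts Γ) = _
    rw [QuotientGroup.eq]
    simp
  exact Subtype.ext (by simp [xi, h, cosRep_base])

theorem xi_one (x : Pts Γ) : xi 1 x = 1 := Subtype.ext (by simp [xi])

variable (A : Type*) [AddCommGroup A] [Module Λ A]

/-- The monomial action of `SL(2, ℤ)` on functions on the cosets. -/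
noncomputable def act (g : SL(2, ℤ)) : (Pts Γ → A) →ₗ[Λ] (Pts Γ → A) where
  toFun v x := χ (xi g x) • v (g⁻¹ • x)
  map_add' v w := by ext x; simp
  map_smul' c v := by ext x; simp [smul_comm c]

variable {χ A}

@[simp] theorem act_apply (g : SL(2, ℤ)) (v : Pts Γ → A) (x : Pts Γ) :
    act χ A g v x = χ (xi g x) • v (g⁻¹ • x) := rfl

theorem act_mul (g h : SL(2, ℤ)) (v : Pts Γ → A) :
    act χ A (g * h) v = act χ A g (act χ A h v) := by
  ext x
  simp [xi_mul, mul_smul]

@[simp] theorem act_one (v : Pts Γ → A) : act χ A 1 v = v := by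
  ext x
  simp [xi_one]

variable (χ) in
/-- Cocycles on `SL(2, ℤ)` with values in functions on the cosets. -/
def IsCocycle (F : SL(2, ℤ) → Pts Γ → A) : Prop := ∀ g h, F (g * h) = F g + act χ A g (F h)

theorem IsCocycle.one {F : SL(2, ℤ) → Pts Γ → A} (hF : IsCocycle χ F) : F 1 = 0 := by
  simpa using hF 1 1

theorem IsCocycle.ext {F F' : SL(2, ℤ) → Pts Γ → A} (hF : IsCocycle χ F) (hF' : IsCocycle χ F')
    (hS : F S = F' S) (hR : F R₃ = F' R₃) : F = F' := by
  funext g
  refine SL2Z_induction (P := fun g ↦ F g = F' g) hS hR (hF.one.trans hF'.one.symm) ?_ ?_ g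
  · intro a b ha hb
    rw [hF, hF', ha, hb]
  · intro a ha
    have h1 := hF a⁻¹ a
    have h2 := hF' a⁻¹ a
    rw [inv_mul_cancel, hF.one] at h1
    rw [inv_mul_cancel, hF'.one, ← ha] at h2
    exact add_right_cancel (h1.symm.trans h2)

/-- A crossed homomorphism as a cocycle on `SL(2, ℤ)`. -/
noncomputable def induce (f : crossedHoms χ A) (g : SL(2, ℤ)) (x : Pts Γ) : A :=
  (f : Γ → A) (xi g x)

theorem isCocycle_induce (f : crossedHoms χ A) : IsCocycle χ (induce f) := fun g h ↦ by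
  funext x
  simp [induce, xi_mul, crossed_mul]

/-- The restriction of a cocycle to `Γ`. -/
noncomputable def restrict {F : SL(2, ℤ) → Pts Γ → A} (hF : IsCocycle χ F) : crossedHoms χ A :=
  ⟨fun γ ↦ F (γ : SL(2, ℤ)) (basePt Γ), fun γ η ↦ by
    have h : ((γ : SL(2, ℤ))⁻¹ • basePt Γ) = basePt Γ := by
      show (((γ : SL(2, ℤ))⁻¹ * 1 : SL(2, ℤ)) : Pts Γ) = _
      rw [QuotientGroup.eq]
      simp
    show F ((γ * η : Γ) : SL(2, ℤ)) (basePt Γ) = _
    rw [Subgroup.coe_mul, hF, Pi.add_apply, act_apply, xi_of_mem, h]⟩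

theorem restrict_induce (f : crossedHoms χ A) : restrict (isCocycle_induce f) = f :=
  Subtype.ext (funext fun γ ↦ congrArg (f : Γ → A) (xi_of_mem γ))

variable (χ A) in
/-- The values at the two generators. -/
noncomputable def values : crossedHoms χ A →ₗ[Λ] ((Pts Γ → A) × (Pts Γ → A)) where
  toFun f := (induce f S, induce f R₃)
  map_add' _ _ := rfl
  map_smul' _ _ := rfl

/-- Conditions under which crossed homomorphisms form a retract of pairs of functions. -/
structure IsGoodChar (χ : Γ →* Λ) : Prop where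
  neg_one_mem : (-1 : SL(2, ℤ)) ∈ Γ
  map_neg_one : ∀ h, χ ⟨-1, h⟩ = 1
  two : IsUnit (2 : Λ)
  exists_weight : ∃ e : Pts Γ → Λ, ∀ x,
    e x + e ((R₃ : SL(2, ℤ))⁻¹ • x) + e ((R₃ : SL(2, ℤ))⁻¹ • (R₃ : SL(2, ℤ))⁻¹ • x) = 1

namespace IsGoodChar

variable (hχ : IsGoodChar χ)
include hχ

theorem xi_neg_one (x : Pts Γ) : xi (-1 : SL(2, ℤ)) x = ⟨-1, hχ.neg_one_mem⟩ := by
  have h : (-1 : SL(2, ℤ))⁻¹ • x = x := by
    induction x using QuotientGroup.induction_on with
    | H g =>
      show (((-1 : SL(2, ℤ))⁻¹ * g : SL(2, ℤ)) : Pts Γ) = _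
      rw [QuotientGroup.eq]
      simpa using hχ.neg_one_mem
  refine Subtype.ext ?_
  show (cosRep x)⁻¹ * -1 * cosRep ((-1 : SL(2, ℤ))⁻¹ • x) = -1
  rw [h]
  simp

theorem act_neg_one (v : Pts Γ → A) : act χ A (-1) v = v := by
  ext x
  have h : (-1 : SL(2, ℤ))⁻¹ • x = x := by
    induction x using QuotientGroup.induction_on with
    | H g =>
      show (((-1 : SL(2, ℤ))⁻¹ * g : SL(2, ℤ)) : Pts Γ) = _
      rw [QuotientGroup.eq]
      simpa using hχ.neg_one_mem
  simp only [act_apply, hχ.xi_neg_one, hχ.map_neg_one, one_smul, h]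

theorem induce_neg_one (f : crossedHoms χ A) : induce f (-1) = 0 := by
  ext x
  rw [induce, hχ.xi_neg_one]
  exact crossed_neg_one_eq_zero (Subtype.ext (by simp)) (hχ.map_neg_one _) hχ.two

theorem act_S_sq (v : Pts Γ → A) : act χ A S (act χ A S v) = v := by
  rw [← act_mul, S_mul_S, hχ.act_neg_one]

theorem act_R_cube (v : Pts Γ → A) :
    act χ A R₃ (act χ A R₃ (act χ A R₃ v)) = v := by
  rw [← act_mul, ← act_mul, ← pow_three', R₃_pow_three, hχ.act_neg_one]

theorem existsUnique_cocycle (vS vR : Pts Γ → A) (hS : vS + act χ A S vS = 0)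
    (hR : vR + act χ A R₃ vR + act χ A R₃ (act χ A R₃ vR) = 0) :
    ∃! F, IsCocycle χ F ∧ F S = vS ∧ F R₃ = vR := by
  let sf : (Pts Γ → A) → (Pts Γ → A) := fun v ↦ vS + act χ A S v
  have hsf : ∀ v, sf (sf v) = v := fun v ↦ by
    simp only [sf, map_add, hχ.act_S_sq, ← add_assoc, hS, zero_add]
  let s : Equiv.Perm (Pts Γ → A) := ⟨sf, sf, hsf, hsf⟩
  let rf : (Pts Γ → A) → (Pts Γ → A) := fun v ↦ vR + act χ A R₃ v
  have hrf : ∀ v, rf (rf (rf v)) = v := fun v ↦ by
    simp only [rf, map_add, hχ.act_R_cube, ← add_assoc, hR, zero_add]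
  let r : Equiv.Perm (Pts Γ → A) := ⟨rf, fun v ↦ rf (rf v), hrf, hrf⟩
  obtain ⟨ρ, hρS, hρR, -⟩ := exists_hom_of_pow_eq_one s r
    (Equiv.ext fun v ↦ by simpa [pow_two, s] using hsf v)
    (Equiv.ext fun v ↦ by simpa [pow_succ, r] using hrf v)
  have haff : ∀ g v, ρ g v = ρ g 0 + act χ A g v := by
    intro g
    refine SL2Z_induction (P := fun g ↦ ∀ v, ρ g v = ρ g 0 + act χ A g v) ?_ ?_ ?_ ?_ ?_ g
    · intro v; simp [hρS, s, sf]
    · intro v; simp [hρR, r, rf]
    · intro v; simp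
    · intro a b ha hb v
      rw [map_mul, Equiv.Perm.mul_apply, Equiv.Perm.mul_apply, hb v, ha, ha (ρ b 0), map_add,
        ← act_mul, add_assoc]
    · intro a ha
      have key : ∀ v, ρ a⁻¹ v = act χ A a⁻¹ (v - ρ a 0) := fun v ↦ by
        have h := ha (ρ a⁻¹ v)
        rw [← Equiv.Perm.mul_apply, ← map_mul, mul_inv_cancel, map_one, Equiv.Perm.one_apply] at h
        rw [sub_eq_iff_eq_add'.mpr h, ← act_mul, inv_mul_cancel, act_one]
      intro v
      rw [key v, key 0]
      simp only [map_sub, map_zero]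
      abel
  refine ⟨fun g ↦ ρ g 0, ⟨fun g h ↦ ?_, ?_, ?_⟩, ?_⟩
  · show ρ (g * h) 0 = _
    rw [map_mul, Equiv.Perm.mul_apply, haff g]
  · simp [hρS, s, sf]
  · simp [hρR, r, rf]
  · rintro F ⟨hF, hFS, hFR⟩
    refine hF.ext (fun g h ↦ ?_) (by simp [hFS, hρS, s, sf]) (by simp [hFR, hρR, r, rf])
    show ρ (g * h) 0 = _
    rw [map_mul, Equiv.Perm.mul_apply, haff g]

/-- Half. -/
noncomputable def half : Λ := ((hχ.two.unit⁻¹ : Λˣ) : Λ)

theorem half_add_half : hχ.half + hχ.half = 1 := by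
  rw [← two_mul]
  exact hχ.two.mul_val_inv

/-- A weight for the element of order three. -/
noncomputable def weight : Pts Γ → Λ := hχ.exists_weight.choose

theorem weight_spec (x : Pts Γ) : hχ.weight x + hχ.weight ((R₃ : SL(2, ℤ))⁻¹ • x) +
    hχ.weight ((R₃ : SL(2, ℤ))⁻¹ • (R₃ : SL(2, ℤ))⁻¹ • x) = 1 :=
  hχ.exists_weight.choose_spec x

variable (A) in
/-- The projection onto the values allowed at `S`. -/
noncomputable def projS : (Pts Γ → A) →ₗ[Λ] (Pts Γ → A) :=
  LinearMap.id - hχ.half • (LinearMap.id + act χ A S)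

variable (A) in
/-- The projection onto the values allowed at `T * S`. -/
noncomputable def projR : (Pts Γ → A) →ₗ[Λ] (Pts Γ → A) where
  toFun v := v - fun x ↦ hχ.weight x • (v + act χ A R₃ v + act χ A R₃ (act χ A R₃ v)) x
  map_add' v w := by
    ext x
    simp only [map_add, Pi.add_apply, Pi.sub_apply, smul_add]
    abel
  map_smul' c v := by
    ext x
    simp [map_smul, smul_sub, smul_comm c]

theorem projS_spec (v : Pts Γ → A) :
    hχ.projS A v + act χ A S (hχ.projS A v) = 0 := by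
  have h : hχ.half • (v + act χ A S v) + hχ.half • (v + act χ A S v) = v + act χ A S v := by
    rw [← add_smul, hχ.half_add_half, one_smul]
  simp only [projS, LinearMap.sub_apply, LinearMap.smul_apply, LinearMap.add_apply,
    LinearMap.id_apply, map_sub, map_smul, map_add, hχ.act_S_sq, add_comm (act χ A S v) v]
  rw [sub_add_sub_comm, h, sub_self]

theorem projR_spec (v : Pts Γ → A) :
    hχ.projR A v + act χ A R₃ (hχ.projR A v) + act χ A R₃ (act χ A R₃ (hχ.projR A v)) = 0 := by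
  set w := v + act χ A R₃ v + act χ A R₃ (act χ A R₃ v) with hw
  have hAw : act χ A R₃ w = w := by
    simp only [hw, map_add, hχ.act_R_cube]
    abel
  have hpt : ∀ e : Pts Γ → Λ, act χ A R₃ (fun x ↦ e x • w x) =
      fun x ↦ e ((R₃ : SL(2, ℤ))⁻¹ • x) • w x := fun e ↦ by
    funext x
    conv_rhs => rw [← hAw]
    simp [smul_comm (χ (xi R₃ x))]
  show (v - fun x ↦ hχ.weight x • w x) + act χ A R₃ (v - fun x ↦ hχ.weight x • w x) +
    act χ A R₃ (act χ A R₃ (v - fun x ↦ hχ.weight x • w x)) = 0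
  rw [map_sub, map_sub, hpt, hpt]
  funext x
  have h := congrArg (· • w x) (hχ.weight_spec x)
  simp only [add_smul, one_smul] at h
  simp only [Pi.add_apply, Pi.sub_apply, Pi.zero_apply]
  rw [show ∀ a b c a' b' c' : A, a - a' + (b - b') + (c - c') = (a + b + c) - (a' + b' + c') from
    fun a b c a' b' c' ↦ by abel, h]
  exact sub_self (w x)

theorem projS_of (v : Pts Γ → A) (h : v + act χ A S v = 0) : hχ.projS A v = v := by
  show v - hχ.half • (v + act χ A S v) = v
  rw [h, smul_zero, sub_zero]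

theorem projR_of (v : Pts Γ → A)
    (h : v + act χ A R₃ v + act χ A R₃ (act χ A R₃ v) = 0) : hχ.projR A v = v := by
  show (v - fun x ↦ hχ.weight x • (v + act χ A R₃ v + act χ A R₃ (act χ A R₃ v)) x) = v
  rw [h]
  simp only [Pi.zero_apply, smul_zero]
  exact sub_zero v

/-- The cocycle of a pair of functions. -/
noncomputable def cocycleOf (v : (Pts Γ → A) × (Pts Γ → A)) : SL(2, ℤ) → Pts Γ → A :=
  (hχ.existsUnique_cocycle _ _ (hχ.projS_spec v.1) (hχ.projR_spec v.2)).choose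

theorem cocycleOf_spec (v : (Pts Γ → A) × (Pts Γ → A)) :
    IsCocycle χ (hχ.cocycleOf v) ∧ hχ.cocycleOf v S = hχ.projS A v.1 ∧
      hχ.cocycleOf v R₃ = hχ.projR A v.2 :=
  (hχ.existsUnique_cocycle _ _ (hχ.projS_spec v.1) (hχ.projR_spec v.2)).choose_spec.1

theorem cocycleOf_eq {v : (Pts Γ → A) × (Pts Γ → A)} {F : SL(2, ℤ) → Pts Γ → A}
    (hF : IsCocycle χ F) (hS : F S = hχ.projS A v.1) (hR : F R₃ = hχ.projR A v.2) :
    hχ.cocycleOf v = F :=
  (hχ.cocycleOf_spec v).1.ext hF ((hχ.cocycleOf_spec v).2.1.trans hS.symm)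
    ((hχ.cocycleOf_spec v).2.2.trans hR.symm)

variable (A) in
/-- The retraction onto crossed homomorphisms. -/
noncomputable def retract : ((Pts Γ → A) × (Pts Γ → A)) →ₗ[Λ] crossedHoms χ A where
  toFun v := restrict (hχ.cocycleOf_spec v).1
  map_add' v w := by
    have h : hχ.cocycleOf (v + w) = hχ.cocycleOf v + hχ.cocycleOf w :=
      hχ.cocycleOf_eq (fun g h ↦ by
        simp only [Pi.add_apply, (hχ.cocycleOf_spec v).1 g h, (hχ.cocycleOf_spec w).1 g h, map_add]
        abel)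
        (by simp [(hχ.cocycleOf_spec v).2.1, (hχ.cocycleOf_spec w).2.1])
        (by simp [(hχ.cocycleOf_spec v).2.2, (hχ.cocycleOf_spec w).2.2])
    exact Subtype.ext (funext fun γ ↦ by simp [restrict, h])
  map_smul' c v := by
    have h : hχ.cocycleOf (c • v) = c • hχ.cocycleOf v :=
      hχ.cocycleOf_eq (fun g h ↦ by
        simp only [Pi.smul_apply, (hχ.cocycleOf_spec v).1 g h, map_smul, smul_add])
        (by simp [(hχ.cocycleOf_spec v).2.1])
        (by simp [(hχ.cocycleOf_spec v).2.2])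
    exact Subtype.ext (funext fun γ ↦ by simp [restrict, h])

theorem retract_values (f : crossedHoms χ A) : hχ.retract A (values χ A f) = f := by
  have hF := isCocycle_induce f
  have h : hχ.cocycleOf (values χ A f) = induce f := by
    refine hχ.cocycleOf_eq hF (hχ.projS_of _ ?_).symm (hχ.projR_of _ ?_).symm
    · show induce f S + act χ A S (induce f S) = 0
      rw [← hF, S_mul_S, hχ.induce_neg_one]
    · show induce f R₃ + act χ A R₃ (induce f R₃) + act χ A R₃ (act χ A R₃ (induce f R₃)) = 0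
      rw [add_assoc, ← map_add, ← hF, ← hF, ← pow_three, R₃_pow_three, hχ.induce_neg_one]
  refine Eq.trans (Subtype.ext (funext fun γ ↦ ?_)) (restrict_induce f)
  simp [retract, restrict, h]

theorem retract_map {B : Type*} [AddCommGroup B] [Module Λ B] (u : A →ₗ[Λ] B)
    (v : (Pts Γ → A) × (Pts Γ → A)) :
    hχ.retract B (u ∘ v.1, u ∘ v.2) = crossedMap u (hχ.retract A v) := by
  have hact : ∀ (g : SL(2, ℤ)) (w : Pts Γ → A), act χ B g (u ∘ w) = u ∘ act χ A g w := fun g w ↦ by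
    funext x; simp
  have h : hχ.cocycleOf (u ∘ v.1, u ∘ v.2) = fun g ↦ u ∘ hχ.cocycleOf v g := by
    refine hχ.cocycleOf_eq (fun g h ↦ ?_) ?_ ?_
    · rw [hact, (hχ.cocycleOf_spec v).1 g h]
      funext x; simp
    · simp only [(hχ.cocycleOf_spec v).2.1, projS, LinearMap.sub_apply, LinearMap.smul_apply,
        LinearMap.add_apply, LinearMap.id_apply, hact]
      funext x; simp
    · simp only [(hχ.cocycleOf_spec v).2.2, projR, LinearMap.coe_mk, AddHom.coe_mk, hact]
      funext x; simp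
  exact Subtype.ext (funext fun γ ↦ by simp [retract, restrict, h])

end IsGoodChar

end FermatAgent.RTLift.Modules
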