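import Mathlib
import Fermat.Agent.RTLift.Modules.Induced

/-!
Consequences of the retraction: crossed homomorphisms are a finite projective module whose
formation commutes with quotients of the coefficients.
-/

set_option autoImplicit false

namespace FermatAgent.RTLift.Modules.IsGoodChar

open scoped MatrixGroups

variable {Γ : Subgroup SL(2, ℤ)} {Λ : Type*} [CommRing Λ] {χ : Γ →* Λ}
  {A : Type*} [AddCommGroup A] [Module Λ A] {B : Type*} [AddCommGroup B] [Module Λ B]

theorem retract_comp_values (hχ : IsGoodChar χ) :
    (hχ.retract A).comp (values χ A) = LinearMap.id :=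
  LinearMap.ext hχ.retract_values

theorem retract_surjective (hχ : IsGoodChar χ) : Function.Surjective (hχ.retract A) :=
  fun f ↦ ⟨values χ A f, hχ.retract_values f⟩

/-- Surjective maps of coefficients give surjections on crossed homomorphisms. -/
theorem crossedMap_surjective (hχ : IsGoodChar χ) (u : A →ₗ[Λ] B) (hu : Function.Surjective u) :
    Function.Surjective (crossedMap u : crossedHoms χ A → crossedHoms χ B) := by
  intro f
  refine ⟨hχ.retract A (Function.surjInv hu ∘ (values χ B f).1,
    Function.surjInv hu ∘ (values χ B f).2), ?_⟩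
  rw [← hχ.retract_map]
  simp only [← Function.comp_assoc, (Function.rightInverse_surjInv hu).comp_eq_id,
    Function.id_comp]
  exact hχ.retract_values f

/-- Surjective maps of coefficients give surjections on cohomology. -/
theorem h1Map_surjective (hχ : IsGoodChar χ) (u : A →ₗ[Λ] B) (hu : Function.Surjective u) :
    Function.Surjective (h1Map u : H1 χ A → H1 χ B) := by
  intro y
  obtain ⟨g, rfl⟩ := Submodule.Quotient.mk_surjective _ y
  obtain ⟨f, rfl⟩ := hχ.crossedMap_surjective u hu g
  exact ⟨Submodule.Quotient.mk f, rfl⟩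

variable [Γ.FiniteIndex]

theorem finite_crossedHoms (hχ : IsGoodChar χ) [Module.Finite Λ A] :
    Module.Finite Λ (crossedHoms χ A) :=
  Module.Finite.of_surjective (hχ.retract A) hχ.retract_surjective

theorem finite_h1 (hχ : IsGoodChar χ) [Module.Finite Λ A] : Module.Finite Λ (H1 χ A) :=
  have := hχ.finite_crossedHoms (A := A)
  Module.Finite.of_surjective (Submodule.mkQ _) (Submodule.mkQ_surjective _)

theorem projective_crossedHoms (hχ : IsGoodChar χ) :
    Module.Projective Λ (crossedHoms χ Λ) :=
  Module.Projective.of_split (values χ Λ) (hχ.retract Λ) hχ.retract_comp_values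

/-- A crossed homomorphism with values in `I • A` is an `I`-combination of crossed homomorphisms. -/
theorem mem_smul_top (hχ : IsGoodChar χ) (I : Ideal Λ) (f : crossedHoms χ A)
    (hf : ∀ γ, (f : Γ → A) γ ∈ I • (⊤ : Submodule Λ A)) :
    f ∈ I • (⊤ : Submodule Λ (crossedHoms χ A)) := by
  classical
  have := Fintype.ofFinite (Pts Γ)
  have key : ∀ w : Pts Γ → A, (∀ x, w x ∈ I • (⊤ : Submodule Λ A)) →
      w ∈ I • (⊤ : Submodule Λ (Pts Γ → A)) := fun w hw ↦ by
    rw [← Finset.univ_sum_single w]
    refine Submodule.sum_mem _ fun x _ ↦ ?_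
    have h := Submodule.mem_map_of_mem (f := LinearMap.single Λ (fun _ : Pts Γ ↦ A) x) (hw x)
    rw [Submodule.map_smul''] at h
    exact Submodule.smul_mono le_rfl le_top h
  have h1 : values χ A f ∈ I • (⊤ : Submodule Λ ((Pts Γ → A) × (Pts Γ → A))) := by
    have hl := Submodule.mem_map_of_mem (f := LinearMap.inl Λ (Pts Γ → A) (Pts Γ → A))
      (key (values χ A f).1 fun x ↦ hf _)
    have hr := Submodule.mem_map_of_mem (f := LinearMap.inr Λ (Pts Γ → A) (Pts Γ → A))
      (key (values χ A f).2 fun x ↦ hf _)
    rw [Submodule.map_smul''] at hl hr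
    have := add_mem (Submodule.smul_mono (le_refl I) le_top hl) (Submodule.smul_mono (le_refl I) le_top hr)
    simpa using this
  have h2 := Submodule.mem_map_of_mem (f := hχ.retract A) h1
  rw [Submodule.map_smul'', hχ.retract_values] at h2
  exact Submodule.smul_mono le_rfl le_top h2

/-- The kernel of a surjective change of coefficients with kernel `I • A`. -/
theorem ker_crossedMap (hχ : IsGoodChar χ) (I : Ideal Λ) (u : A →ₗ[Λ] B)
    (hu : LinearMap.ker u = I • ⊤) :
    LinearMap.ker (crossedMap u : crossedHoms χ A →ₗ[Λ] crossedHoms χ B) = I • ⊤ := by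
  refine le_antisymm (fun f hf ↦ hχ.mem_smul_top I f fun γ ↦ ?_) ?_
  · rw [← hu, LinearMap.mem_ker, ← crossedMap_apply u f γ, LinearMap.mem_ker.mp hf]
    rfl
  · rw [Submodule.smul_le]
    intro c hc f _
    refine LinearMap.mem_ker.mpr (Subtype.ext (funext fun γ ↦ ?_))
    show u ((c • (f : Γ → A)) γ) = 0
    rw [← LinearMap.mem_ker, hu]
    exact Submodule.smul_mem_smul hc Submodule.mem_top

end FermatAgent.RTLift.Modules.IsGoodChar
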