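import Mathlib
import Fermat.Agent.RTLift.Modules.Coeff

/-!
Characters of `Γ₀(M)` given by the upper left entry, and correspondences whose weights are given
by the upper left entries of their representatives.
-/

set_option autoImplicit false

namespace FermatAgent.RTLift.Modules

open scoped MatrixGroups
open CongruenceSubgroup ModularGroup FermatAgent.ModCurveGroup

/-- The upper left entry modulo `M₀` of an element of `Γ₀(M)`, as a unit. -/
def aUnit {M M₀ : ℕ} (h : M₀ ∣ M) : Gamma0 M →* (ZMod M₀)ˣ :=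
  MonoidHom.toHomUnits
    { toFun := fun γ ↦ ((((γ : SL(2, ℤ)) : Matrix (Fin 2) (Fin 2) ℤ) 0 0 : ℤ) : ZMod M₀)
      map_one' := by simp
      map_mul' := fun γ η ↦ by
        have hη : (((((η : SL(2, ℤ)) : Matrix (Fin 2) (Fin 2) ℤ) 1 0 : ℤ)) : ZMod M₀) = 0 :=
          (ZMod.intCast_zmod_eq_zero_iff_dvd _ _).mpr ((Int.natCast_dvd_natCast.mpr h).trans
            ((ZMod.intCast_zmod_eq_zero_iff_dvd _ _).mp (Gamma0_mem.mp η.2)))
        simp [Matrix.mul_apply, Fin.sum_univ_two, hη] }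

@[simp] theorem val_aUnit {M M₀ : ℕ} (h : M₀ ∣ M) (γ : Gamma0 M) :
    (aUnit h γ : ZMod M₀) = ((((γ : SL(2, ℤ)) : Matrix (Fin 2) (Fin 2) ℤ) 0 0 : ℤ) : ZMod M₀) :=
  rfl

variable {Λ : Type*} [CommRing Λ] {M₀ : ℕ}

/-- The character of `Γ₀(M)` attached to a character modulo `M₀`. -/
def levelChar {M : ℕ} (h : M₀ ∣ M) (θ : (ZMod M₀)ˣ →* Λ) : Gamma0 M →* Λ := θ.comp (aUnit h)

theorem levelChar_apply {M : ℕ} (h : M₀ ∣ M) (θ : (ZMod M₀)ˣ →* Λ) (γ : Gamma0 M) :
    levelChar h θ γ = θ (aUnit h γ) := rfl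

theorem neg_one_mem_gamma0 (M : ℕ) : (-1 : SL(2, ℤ)) ∈ Gamma0 M := Gamma0_mem.mpr (by simp)

theorem levelChar_neg_one {M : ℕ} (h : M₀ ∣ M) {θ : (ZMod M₀)ˣ →* Λ} (hθ : θ (-1) = 1)
    (hm : (-1 : SL(2, ℤ)) ∈ Gamma0 M) : levelChar h θ ⟨-1, hm⟩ = 1 := by
  rw [levelChar_apply, show aUnit h ⟨-1, hm⟩ = -1 from Units.ext (by simp), hθ]

/-- A weight on a finite set for a permutation of order three without fixed points. -/
theorem exists_weight_of_free {X : Type*} [Finite X] (σ : X → X) (h3 : ∀ x, σ (σ (σ x)) = x)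
    (hfree : ∀ x, σ x ≠ x) : ∃ e : X → Λ, ∀ x, e x + e (σ x) + e (σ (σ x)) = 1 := by
  classical
  have : Fintype X := Fintype.ofFinite X
  let o := Fintype.equivFin X
  let e : X → Λ := fun x ↦ if o x < o (σ x) ∧ o x < o (σ (σ x)) then 1 else 0
  refine ⟨e, fun x ↦ ?_⟩
  have h1 : o (σ x) ≠ o x := fun h ↦ hfree x (o.injective h)
  have h2 : o (σ (σ x)) ≠ o (σ x) := fun h ↦ hfree (σ x) (o.injective h)
  have h4 : o (σ (σ x)) ≠ o x := fun h ↦ hfree x (by
    have h' := congrArg σ (o.injective h)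
    rw [h3] at h'
    exact h'.symm)
  simp only [e, h3]
  revert h1 h2 h4
  generalize o x = a, o (σ x) = b, o (σ (σ x)) = c
  intro h1 h2 h4
  split_ifs <;> first | (simp; done) | (exfalso; omega)

theorem smul_R_cube {Γ : Subgroup SL(2, ℤ)} (h : (-1 : SL(2, ℤ)) ∈ Γ) (x : Pts Γ) :
    (R₃ : SL(2, ℤ))⁻¹ • (R₃ : SL(2, ℤ))⁻¹ • (R₃ : SL(2, ℤ))⁻¹ • x = x := by
  rw [smul_smul, smul_smul, ← pow_three', inv_pow, R₃_pow_three]
  induction x using QuotientGroup.induction_on with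
  | H g =>
    show (((-1 : SL(2, ℤ))⁻¹ * g : SL(2, ℤ)) : Pts Γ) = _
    rw [QuotientGroup.eq]
    simpa using h

theorem smul_R_ne_of_prime {M r : ℕ} (hr : r.Prime) (hr3 : r % 3 = 2) (hrM : r ∣ M)
    (x : Pts (Gamma0 M)) : (R₃ : SL(2, ℤ))⁻¹ • x ≠ x := by
  induction x using QuotientGroup.induction_on with
  | H g =>
    intro h
    have h' : (((R₃ : SL(2, ℤ))⁻¹ * g : SL(2, ℤ)) : Pts (Gamma0 M)) = (g : Pts (Gamma0 M)) := h
    rw [QuotientGroup.eq, mul_inv_rev, inv_inv, mul_assoc] at h'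
    set δ : SL(2, ℤ) := g⁻¹ * (R₃ * g) with hδ
    have := Fact.mk hr
    have h10 : (((δ : Matrix (Fin 2) (Fin 2) ℤ) 1 0 : ℤ) : ZMod r) = 0 :=
      (ZMod.intCast_zmod_eq_zero_iff_dvd _ _).mpr ((Int.natCast_dvd_natCast.mpr hrM).trans
        ((ZMod.intCast_zmod_eq_zero_iff_dvd _ _).mp (Gamma0_mem.mp h')))
    have htr : (δ : Matrix (Fin 2) (Fin 2) ℤ).trace = 1 := by
      rw [hδ, Matrix.SpecialLinearGroup.coe_mul, Matrix.trace_mul_comm,
        ← Matrix.SpecialLinearGroup.coe_mul, mul_assoc, mul_inv_cancel, mul_one, coe_R₃]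
      simp [Matrix.trace_fin_two]
    have hdet := δ.2
    rw [Matrix.det_fin_two] at hdet
    rw [Matrix.trace_fin_two] at htr
    set a : ZMod r := (((δ : Matrix (Fin 2) (Fin 2) ℤ) 0 0 : ℤ) : ZMod r) with ha
    have hd : (((δ : Matrix (Fin 2) (Fin 2) ℤ) 1 1 : ℤ) : ZMod r) = 1 - a := by
      have := congrArg (Int.cast : ℤ → ZMod r) htr
      push_cast at this
      linear_combination this
    have hq : a * (1 - a) = 1 := by
      have := congrArg (Int.cast : ℤ → ZMod r) hdet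
      push_cast at this
      rw [h10, hd] at this
      simpa [ha] using this
    have hcube : (-a) ^ 3 = 1 := by linear_combination (1 + a) * hq
    have hone : -a = 1 := by
      have hu : (-a) ≠ 0 := fun h0 ↦ by simp [h0] at hcube
      have hord : orderOf (-a) ∣ Nat.gcd 3 (r - 1) :=
        Nat.dvd_gcd (orderOf_dvd_of_pow_eq_one hcube)
          (orderOf_dvd_of_pow_eq_one (ZMod.pow_card_sub_one_eq_one hu))
      have hg : Nat.gcd 3 (r - 1) = 1 := by
        rw [← Nat.coprime_iff_gcd_eq_one, Nat.Prime.coprime_iff_not_dvd (by norm_num)]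
        omega
      rw [hg, Nat.dvd_one] at hord
      exact orderOf_eq_one_iff.mp hord
    have h3 : ((3 : ℕ) : ZMod r) = 0 := by
      push_cast
      rw [show a = -1 by rw [← hone, neg_neg]] at hq
      linear_combination -hq
    rw [ZMod.natCast_eq_zero_iff] at h3
    rw [(Nat.prime_dvd_prime_iff_eq hr Nat.prime_three).mp h3] at hr3
    omega

/-- `levelChar` is a good character when `2` and `3` are invertible, or `2` is invertible and an
auxiliary prime `r ≡ 2 (mod 3)` divides the level. -/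
theorem isGoodChar_levelChar {M : ℕ} [NeZero M] (h : M₀ ∣ M) {θ : (ZMod M₀)ˣ →* Λ} (hθ : θ (-1) = 1)
    (h2 : IsUnit (2 : Λ)) (h3 : IsUnit (3 : Λ) ∨ ∃ r, r.Prime ∧ r % 3 = 2 ∧ r ∣ M) :
    IsGoodChar (levelChar h θ) where
  neg_one_mem := neg_one_mem_gamma0 M
  map_neg_one := levelChar_neg_one h hθ
  two := h2
  exists_weight := by
    rcases h3 with h3 | ⟨r, hr, hr3, hrM⟩
    · refine ⟨fun _ ↦ ((h3.unit⁻¹ : Λˣ) : Λ), fun _ ↦ ?_⟩
      linear_combination h3.mul_val_inv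
    · exact exists_weight_of_free _ (smul_R_cube (neg_one_mem_gamma0 M))
        (smul_R_ne_of_prime hr hr3 hrM)

namespace CrossCorr

/-- The weights are the inverse upper left entries of the representatives. -/
def IsDelta {Γ Γ' : Subgroup SL(2, ℤ)} {χ : Γ →* Λ} {χ' : Γ' →* Λ} {ι : Type*}
    (D : CrossCorr χ χ' ι) (θ : (ZMod M₀)ˣ →* Λ) : Prop :=
  ∀ i, ((D.rep i 1 0 : ℤ) : ZMod M₀) = 0 ∧
    ∃ a : (ZMod M₀)ˣ, ((D.rep i 0 0 : ℤ) : ZMod M₀) = a ∧ D.weight i = θ a⁻¹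

theorem IsDelta.comp {Γ Γ' Γ'' : Subgroup SL(2, ℤ)} {χ : Γ →* Λ} {χ' : Γ' →* Λ} {χ'' : Γ'' →* Λ}
    {ι κ : Type*} {D : CrossCorr χ χ' ι} {E : CrossCorr χ' χ'' κ} {θ : (ZMod M₀)ˣ →* Λ}
    (hE : E.IsDelta θ) (hD : D.IsDelta θ) : (CrossCorr.comp E D).IsDelta θ := by
  intro x
  obtain ⟨hc, a, ha, hw⟩ := hD x.1
  obtain ⟨hc', b, hb, hv⟩ := hE x.2
  refine ⟨?_, a * b, ?_, ?_⟩
  · simp [CrossCorr.comp, Matrix.mul_apply, Fin.sum_univ_two, hc, hc']
  · simp [CrossCorr.comp, Matrix.mul_apply, Fin.sum_univ_two, hc', ha, hb]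
  · show D.weight x.1 * E.weight x.2 = _
    rw [hw, hv, ← map_mul, ← mul_inv]

variable {M M' : ℕ} {h : M₀ ∣ M} {h' : M₀ ∣ M'} {θ : (ZMod M₀)ˣ →* Λ} {ι κ : Type*}

theorem IsDelta.weight_compat {χ' : Gamma0 M' →* Λ} {D : CrossCorr (levelChar h θ) χ' ι}
    (hD : D.IsDelta θ) {D' : CrossCorr (levelChar h θ) χ' κ} (hD' : D'.IsDelta θ)
    (u : Gamma0 M) {i : κ} {j : ι} (hrep : D'.rep i = coeMat u * D.rep j) :
    D'.weight i * levelChar h θ u = D.weight j := by
  obtain ⟨hc, a, ha, hw⟩ := hD j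
  obtain ⟨-, b, hb, hv⟩ := hD' i
  have hba : b = aUnit h u * a := Units.ext (by
    rw [← hb, hrep, Units.val_mul, ← ha, val_aUnit]
    simp [Matrix.mul_apply, Fin.sum_univ_two, hc])
  rw [hv, hw, levelChar_apply, ← map_mul, hba, mul_inv, mul_comm (aUnit h u)⁻¹, mul_assoc,
    inv_mul_cancel, mul_one]

/-- Equality on cohomology of two correspondences with the same cosets. -/
theorem IsDelta.onH1_eq [Fintype ι] [Fintype κ] {A : Type*} [AddCommGroup A] [Module Λ A]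
    {χ' : Gamma0 M' →* Λ} {D : CrossCorr (levelChar h θ) χ' ι} (hD : D.IsDelta θ) (hsep : D.Sep)
    {D' : CrossCorr (levelChar h θ) χ' κ} (hD' : D'.IsDelta θ) (e : κ ≃ ι) (u : κ → Gamma0 M)
    (hrep : ∀ i, D'.rep i = coeMat (u i) * D.rep (e i)) : D'.onH1 A = D.onH1 A :=
  D.onH1_eq D' e u hrep (fun i ↦ hD.weight_compat hD' (u i) (hrep i))
    (D.target_compat hsep D' e u hrep)

/-- Constructor: representatives in `Δ₀(M₀)` with chosen permutations. -/
def ofDelta (rep : ι → Matrix (Fin 2) (Fin 2) ℤ) (hdet : ∀ i, (rep i).det ≠ 0)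
    (h10 : ∀ i, ((rep i 1 0 : ℤ) : ZMod M₀) = 0) (a : ι → (ZMod M₀)ˣ)
    (h00 : ∀ i, ((rep i 0 0 : ℤ) : ZMod M₀) = a i) (target : Gamma0 M' → ι → ι)
    (target_one : ∀ i, target 1 i = i)
    (target_mul : ∀ γ η i, target (γ * η) i = target η (target γ i))
    (move : Gamma0 M' → ι → Gamma0 M)
    (move_spec : ∀ γ i, rep i * coeMat γ = coeMat (move γ i) * rep (target γ i)) :
    CrossCorr (levelChar h θ) (levelChar h' θ) ι where
  rep := rep
  det_ne := hdet
  weight i := θ (a i)⁻¹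
  target := target
  target_one := target_one
  target_mul := target_mul
  move := move
  move_spec := move_spec
  weight_move γ i := by
    have key : a i * aUnit h' γ = aUnit h (move γ i) * a (target γ i) := by
      refine Units.ext ?_
      have e := congrArg (fun X : Matrix (Fin 2) (Fin 2) ℤ ↦ ((X 0 0 : ℤ) : ZMod M₀))
        (move_spec γ i)
      have hγ : ((((γ : SL(2, ℤ)) : Matrix (Fin 2) (Fin 2) ℤ) 1 0 : ℤ) : ZMod M₀) = 0 :=
        (ZMod.intCast_zmod_eq_zero_iff_dvd _ _).mpr ((Int.natCast_dvd_natCast.mpr h').trans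
          ((ZMod.intCast_zmod_eq_zero_iff_dvd _ _).mp (Gamma0_mem.mp γ.2)))
      simp only [Matrix.mul_apply, Fin.sum_univ_two, Int.cast_add, Int.cast_mul, h00, h10, hγ,
        mul_zero, add_zero] at e
      rw [Units.val_mul, Units.val_mul, val_aUnit, val_aUnit]
      exact e
    rw [levelChar_apply, levelChar_apply, ← map_mul, ← map_mul]
    congr 1
    rw [inv_mul_eq_iff_eq_mul, ← mul_assoc, key, mul_assoc, mul_inv_cancel, mul_one]

end CrossCorr

end FermatAgent.RTLift.Modules
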