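import Mathlib
import Fermat.Agent.RTLift.Modules.Level
import Fermat.Agent.Periods.HeckeHom
import Fermat.Agent.Ihara.Kernel

/-!
The concrete correspondences with characters: `T_l`, `U_q`, the two degeneracy maps, the trace
and the Atkin–Lehner element at an exact prime divisor.
-/

set_option autoImplicit false

namespace FermatAgent.RTLift.Modules

open scoped MatrixGroups
open CongruenceSubgroup

variable {Λ : Type*} [CommRing Λ] {M₀ M M' : ℕ} (h : M₀ ∣ M) (h' : M₀ ∣ M')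
  (θ : (ZMod M₀)ˣ →* Λ)

theorem rep_upper_tRep {l : ℕ} (i : Option (ZMod l)) :
    ((Periods.tRep l i 1 0 : ℤ) : ZMod M₀) = 0 := by
  cases i <;> simp [Periods.tRep, Periods.diagRep, Periods.upperRep]

theorem coprime_of_prime_not_dvd {l : ℕ} (hl : l.Prime) (hlM : ¬ l ∣ M) (h : M₀ ∣ M) :
    l.Coprime M₀ :=
  hl.coprime_iff_not_dvd.mpr fun hd ↦ hlM (hd.trans h)

/-- The upper left entries of the representatives of `T_l`. -/
noncomputable def tEntry {l : ℕ} (hc : l.Coprime M₀) : Option (ZMod l) → (ZMod M₀)ˣ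
  | none => ZMod.unitOfCoprime l hc
  | some _ => 1

/-- `T_l` for a prime `l` not dividing the level. -/
noncomputable def tCross {l : ℕ} (hl : l.Prime) (hlM : ¬ l ∣ M) :
    CrossCorr (levelChar h θ) (levelChar h θ) (Option (ZMod l)) :=
  CrossCorr.ofDelta (h := h) (h' := h) (θ := θ) (Periods.tRep l)
    (fun i ↦ (Periods.tCorr M hl hlM).det_ne i) rep_upper_tRep
    (tEntry (coprime_of_prime_not_dvd hl hlM h))
    (fun i ↦ by cases i <;> simp [Periods.tRep, Periods.diagRep, Periods.upperRep, tEntry])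
    (Periods.tCorr M hl hlM).target (fun i ↦ ((Periods.tCorr M hl hlM).move_one i).1)
    (fun γ η i ↦ ((Periods.tCorr M hl hlM).move_mul γ η i).1)
    (Periods.tCorr M hl hlM).move (Periods.tCorr M hl hlM).move_spec

theorem isDelta_tCross {l : ℕ} (hl : l.Prime) (hlM : ¬ l ∣ M) :
    (tCross h θ hl hlM).IsDelta θ :=
  fun i ↦ ⟨rep_upper_tRep i, _,
    by cases i <;> simp [tCross, CrossCorr.ofDelta, Periods.tRep, Periods.diagRep, Periods.upperRep, tEntry],
    rfl⟩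

theorem sep_tCross {l : ℕ} (hl : l.Prime) (hlM : ¬ l ∣ M) : (tCross h θ hl hlM).Sep :=
  (Periods.tCorr M hl hlM).rep_sep

/-- `U_q` for `q` dividing the level. -/
noncomputable def uCross {q : ℕ} [NeZero q] (hq : q ∣ M) :
    CrossCorr (levelChar h θ) (levelChar h θ) (ZMod q) :=
  CrossCorr.ofDelta (h := h) (h' := h) (θ := θ) (Periods.uCorr M hq).rep
    (Periods.uCorr M hq).det_ne (fun i ↦ by simp [Periods.upperRep]) (fun _ ↦ 1)
    (fun i ↦ by simp [Periods.upperRep])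
    (Periods.uCorr M hq).target (fun i ↦ ((Periods.uCorr M hq).move_one i).1)
    (fun γ η i ↦ ((Periods.uCorr M hq).move_mul γ η i).1)
    (Periods.uCorr M hq).move (Periods.uCorr M hq).move_spec

theorem isDelta_uCross {q : ℕ} [NeZero q] (hq : q ∣ M) : (uCross h θ hq).IsDelta θ :=
  fun _ ↦ ⟨by simp [uCross, CrossCorr.ofDelta, Periods.upperRep], 1,
    by simp [uCross, CrossCorr.ofDelta, Periods.upperRep], rfl⟩

theorem sep_uCross {q : ℕ} [NeZero q] (hq : q ∣ M) : (uCross h θ hq).Sep :=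
  (Periods.uCorr M hq).rep_sep

theorem gamma0_le_of_dvd {M M' : ℕ} (hMM : M ∣ M') : Gamma0 M' ≤ Gamma0 M := fun γ hγ ↦ by
  rw [Gamma0_mem, ZMod.intCast_zmod_eq_zero_iff_dvd] at hγ ⊢
  exact (Int.natCast_dvd_natCast.mpr hMM).trans hγ

/-- The first degeneracy map. -/
def inclCross (hMM : M ∣ M') : CrossCorr (levelChar h θ) (levelChar h' θ) Unit :=
  CrossCorr.ofDelta (h := h) (h' := h') (θ := θ) (fun _ ↦ 1) (fun _ ↦ by simp)
    (fun _ ↦ by simp) (fun _ ↦ 1) (fun _ ↦ by simp) (fun _ i ↦ i) (fun _ ↦ rfl) (fun _ _ _ ↦ rfl)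
    (fun γ _ ↦ Subgroup.inclusion (gamma0_le_of_dvd hMM) γ)
    (fun γ _ ↦ by simp [coeMat])

theorem isDelta_inclCross (hMM : M ∣ M') : (inclCross h h' θ hMM).IsDelta θ :=
  fun _ ↦ ⟨by simp [inclCross, CrossCorr.ofDelta], 1, by simp [inclCross, CrossCorr.ofDelta], rfl⟩

theorem conjDiagMat_spec {q : ℕ} [NeZero q] (δ : Gamma0 (M * q)) :
    !![(q : ℤ), 0; 0, 1] * coeMat δ = coeMat (Ihara.degConj M q δ) * !![(q : ℤ), 0; 0, 1] := by
  obtain ⟨t, ht⟩ := (dvd_mul_left (q : ℤ) M).trans (Ihara.dvd_lowerLeft δ)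
  have hq0 : (q : ℤ) ≠ 0 := Int.natCast_ne_zero.mpr (NeZero.ne q)
  ext i j
  fin_cases i <;> fin_cases j <;>
    simp [Ihara.degConj, Ihara.conjDiagMat, Matrix.mul_apply, Fin.sum_univ_two, coeMat, ht,
      mul_comm]
  rw [mul_comm t, Int.mul_ediv_cancel_left _ hq0, mul_comm]

/-- The second degeneracy map, given by `diag(q, 1)`. -/
noncomputable def degCross {q : ℕ} [NeZero q] (hc : q.Coprime M₀) (hMM : M * q ∣ M') :
    CrossCorr (levelChar h θ) (levelChar h' θ) Unit :=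
  CrossCorr.ofDelta (h := h) (h' := h') (θ := θ) (fun _ ↦ !![(q : ℤ), 0; 0, 1])
    (fun _ ↦ by simpa using NeZero.ne q) (fun _ ↦ by simp)
    (fun _ ↦ ZMod.unitOfCoprime q hc) (fun _ ↦ by simp) (fun _ i ↦ i) (fun _ ↦ rfl)
    (fun _ _ _ ↦ rfl)
    (fun γ _ ↦ Ihara.degConj M q (Subgroup.inclusion (gamma0_le_of_dvd hMM) γ))
    (fun γ _ ↦ conjDiagMat_spec (Subgroup.inclusion (gamma0_le_of_dvd hMM) γ))

theorem isDelta_degCross {q : ℕ} [NeZero q] (hc : q.Coprime M₀) (hMM : M * q ∣ M') :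
    (degCross h h' θ hc hMM).IsDelta θ :=
  fun _ ↦ ⟨by simp [degCross, CrossCorr.ofDelta], ZMod.unitOfCoprime q hc,
    by simp [degCross, CrossCorr.ofDelta], rfl⟩

section Trace

/-- Right cosets of `Γ₀(M')` in `Γ₀(M)`, as left cosets of the inverses. -/
abbrev TrPts (M M' : ℕ) : Type := Gamma0 M ⧸ (Gamma0 M').subgroupOf (Gamma0 M)

theorem trace_move_mem (γ : Gamma0 M) (x : TrPts M M') :
    ((x.out)⁻¹ * γ * (γ⁻¹ • x).out : SL(2, ℤ)) ∈ Gamma0 M' := by
  have h : (x.out)⁻¹ * γ * (γ⁻¹ • x).out ∈ (Gamma0 M').subgroupOf (Gamma0 M) := by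
    rw [mul_assoc, ← QuotientGroup.eq, QuotientGroup.out_eq',
      show ((γ * (γ⁻¹ • x).out : Gamma0 M) : TrPts M M') =
        γ • (((γ⁻¹ • x).out : Gamma0 M) : TrPts M M') from rfl,
      QuotientGroup.out_eq', smul_inv_smul]
  simpa [Subgroup.mem_subgroupOf] using h

/-- The trace from level `M'` to level `M`. -/
noncomputable def trCross :
    CrossCorr (levelChar h' θ) (levelChar h θ) (TrPts M M') :=
  CrossCorr.ofDelta (h := h') (h' := h) (θ := θ) (fun x ↦ coeMat ((x.out)⁻¹))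
    (fun x ↦ by rw [show (coeMat ((x.out)⁻¹)).det = 1 from (((x.out)⁻¹ : Gamma0 M) : SL(2, ℤ)).2]; exact one_ne_zero)
    (fun x ↦ (ZMod.intCast_zmod_eq_zero_iff_dvd _ _).mpr ((Int.natCast_dvd_natCast.mpr h).trans
      ((ZMod.intCast_zmod_eq_zero_iff_dvd _ _).mp (Gamma0_mem.mp ((x.out)⁻¹).2))))
    (fun x ↦ aUnit h ((x.out)⁻¹)) (fun x ↦ (val_aUnit h _).symm)
    (fun γ x ↦ γ⁻¹ • x) (fun x ↦ by simp) (fun γ η x ↦ by simp [mul_smul])
    (fun γ x ↦ ⟨_, trace_move_mem γ x⟩)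
    (fun γ x ↦ by
      rw [← coeMat_mul]
      show _ = ((((x.out)⁻¹ * γ * (γ⁻¹ • x).out : SL(2, ℤ))) : Matrix (Fin 2) (Fin 2) ℤ) * _
      simp only [coeMat, ← Matrix.SpecialLinearGroup.coe_mul, Subgroup.coe_mul, Subgroup.coe_inv,
        mul_inv_cancel_right])

theorem isDelta_trCross : (trCross h h' θ).IsDelta θ :=
  fun x ↦ ⟨(ZMod.intCast_zmod_eq_zero_iff_dvd _ _).mpr ((Int.natCast_dvd_natCast.mpr h).trans
      ((ZMod.intCast_zmod_eq_zero_iff_dvd _ _).mp (Gamma0_mem.mp ((x.out)⁻¹).2))),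
    aUnit h ((x.out)⁻¹), by rw [val_aUnit]; rfl, rfl⟩

end Trace

section AtkinLehner

variable {q : ℕ} [NeZero q] {x y : ℤ}

/-- The matrix `!![q x, y; M q, q]`. -/
def alMatZ (M q : ℕ) (x y : ℤ) : Matrix (Fin 2) (Fin 2) ℤ := !![q * x, y; M * q, q]

omit [NeZero q] in
theorem alMatZ_det (hxy : x * q - y * M = 1) : (alMatZ M q x y).det = q := by
  rw [alMatZ, Matrix.det_fin_two_of]
  linear_combination (q : ℤ) * hxy

omit [NeZero q] in
/-- The image of an element of `Γ₀(Mq)` under conjugation by the Atkin–Lehner matrix, times `q`. -/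
theorem exists_alMove (hxy : x * q - y * M = 1) (γ : Gamma0 (M * q)) :
    ∃ δ : Gamma0 (M * q), alMatZ M q x y * coeMat γ = coeMat δ * alMatZ M q x y := by
  obtain ⟨e, he⟩ := (ZMod.intCast_zmod_eq_zero_iff_dvd _ _).mp (Gamma0_mem.mp γ.2)
  have hdet := (γ : SL(2, ℤ)).2
  rw [Matrix.det_fin_two] at hdet
  set a := ((γ : SL(2, ℤ)) : Matrix (Fin 2) (Fin 2) ℤ) 0 0
  set b := ((γ : SL(2, ℤ)) : Matrix (Fin 2) (Fin 2) ℤ) 0 1
  set d := ((γ : SL(2, ℤ)) : Matrix (Fin 2) (Fin 2) ℤ) 1 1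
  push_cast at he
  rw [he] at hdet
  refine ⟨⟨⟨!![q * x * a + y * M * q * e - M * q * x * b - M * y * d,
      -(x * y * a) - y ^ 2 * M * e + x * (q * x * b + y * d);
      M * q * (a + q * e - M * b - d),
      -(M * a * y) - M * q * e * y + M * q * b * x + q * d * x], ?_⟩, ?_⟩, ?_⟩
  · rw [Matrix.det_fin_two_of]
    linear_combination (1 : ℤ) * hdet + (a * d - b * ((M : ℤ) * q * e)) * (x * q - y * M + 1) * hxy
  · exact Gamma0_mem.mpr ((ZMod.intCast_zmod_eq_zero_iff_dvd _ _).mpr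
      ⟨a + q * e - M * b - d, by simp⟩)
  · ext i j
    fin_cases i <;> fin_cases j <;>
      simp [alMatZ, coeMat, Matrix.mul_apply, Fin.sum_univ_two, he]
    · linear_combination (-(q : ℤ) * x * a - y * M * q * e) * hxy
    · linear_combination (-(q : ℤ) * x * b - y * d) * hxy
    · linear_combination (-(M : ℤ) * q * a - (M * q * q) * e) * hxy
    · linear_combination (-(M : ℤ) * q * b - q * d) * hxy

/-- The Atkin–Lehner involution at `q` in level `M q`, `q` prime to `M`. -/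
noncomputable def alCross (hq : M₀ ∣ M) (hxy : x * q - y * M = 1) (hh : M₀ ∣ M * q) :
    CrossCorr (levelChar hh θ) (levelChar hh θ) Unit :=
  CrossCorr.ofDelta (h := hh) (h' := hh) (θ := θ) (fun _ ↦ alMatZ M q x y)
    (fun _ ↦ by rw [alMatZ_det hxy]; exact_mod_cast NeZero.ne q)
    (fun _ ↦ by
      show (((M * q : ℤ)) : ZMod M₀) = 0
      rw [ZMod.intCast_zmod_eq_zero_iff_dvd]
      exact (Int.natCast_dvd_natCast.mpr hq).trans (dvd_mul_right _ _))
    (fun _ ↦ 1)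
    (fun _ ↦ by
      have := congrArg (Int.cast : ℤ → ZMod M₀) hxy
      push_cast at this
      rw [(ZMod.natCast_eq_zero_iff _ _).mpr hq, mul_zero, sub_zero] at this
      show (((q : ℤ) * x : ℤ) : ZMod M₀) = 1
      push_cast
      linear_combination this)
    (fun _ i ↦ i) (fun _ ↦ rfl) (fun _ _ _ ↦ rfl)
    (fun γ _ ↦ (exists_alMove hxy γ).choose) (fun γ _ ↦ (exists_alMove hxy γ).choose_spec)

end AtkinLehner

end FermatAgent.RTLift.Modules
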