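import Mathlib
import Fermat.Agent.RTLift.Modules.Hecke

/-!
Products of upper triangular Hecke representatives for two different primes.
-/

set_option autoImplicit false

namespace FermatAgent.RTLift.Modules

open scoped MatrixGroups
open CongruenceSubgroup

/-- `!![1, e; 0, 1]` in `Γ₀(M)`. -/
def shiftLevel (M : ℕ) (e : ℤ) : Gamma0 M := Periods.shiftGamma0 M e

theorem coeMat_shiftLevel (M : ℕ) (e : ℤ) : coeMat (shiftLevel M e) = !![1, e; 0, 1] := rfl

/-- Normal forms of upper triangular matrices modulo left translation by `SL(2, ℤ)`. -/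
theorem upper_eq_of_eq_mul {a b d a' b' d' : ℤ} (ha : 0 < a) (ha' : 0 < a') (_hd' : 0 < d')
    (δ : SL(2, ℤ))
    (h : !![a, b; 0, d] = (δ : Matrix (Fin 2) (Fin 2) ℤ) * !![a', b'; 0, d']) :
    a = a' ∧ d = d' ∧ d' ∣ b - b' := by
  have h10 := congrFun (congrFun h 1) 0
  have h00 := congrFun (congrFun h 0) 0
  have h11 := congrFun (congrFun h 1) 1
  have h01 := congrFun (congrFun h 0) 1
  simp [Matrix.mul_apply, Fin.sum_univ_two] at h00 h01 h10 h11
  have hdet := δ.2
  rw [Matrix.det_fin_two] at hdet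
  have e10 : (δ : Matrix (Fin 2) (Fin 2) ℤ) 1 0 = 0 := by
    rcases h10 with h | h
    · exact h
    · exact absurd h ha'.ne'
  rw [e10, mul_zero, sub_zero] at hdet
  have e00 : (δ : Matrix (Fin 2) (Fin 2) ℤ) 0 0 = 1 := by
    rcases Int.eq_one_or_neg_one_of_mul_eq_one hdet with h | h
    · exact h
    · rw [h] at h00; omega
  rw [e00, one_mul] at hdet h00 h01
  rw [e10, hdet, zero_mul, one_mul, zero_add] at h11
  refine ⟨h00, h11, (δ : Matrix (Fin 2) (Fin 2) ℤ) 0 1, ?_⟩
  rw [h01]
  ring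

theorem tRep_none_eq (l : ℕ) :
    Periods.tRep l (none : Option (ZMod l)) = !![(l : ℤ), 0; 0, 1] := rfl

theorem tRep_some_eq (l : ℕ) (j : ZMod l) :
    Periods.tRep l (some j) = !![1, (j.val : ℤ); 0, (l : ℤ)] := rfl

/-- Diagonal representatives commute past upper ones up to a translation. -/
theorem exists_swap_diag {M l : ℕ} [NeZero l] (q : ℤ) (j : ZMod l) :
    ∃ j' : ZMod l, ∃ e : ℤ, !![q, 0; 0, 1] * Periods.tRep l (some j) =
      coeMat (shiftLevel M e) * (Periods.tRep l (some j') * !![q, 0; 0, 1]) := by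
  obtain ⟨e, he⟩ : (l : ℤ) ∣ q * (j.val : ℤ) - (((q : ZMod l) * j).val : ℤ) := by
    rw [← ZMod.intCast_zmod_eq_zero_iff_dvd]
    simp
  refine ⟨(q : ZMod l) * j, e, ?_⟩
  rw [tRep_some_eq, tRep_some_eq, coeMat_shiftLevel]
  ext a b
  fin_cases a <;> fin_cases b <;>
    simp [Matrix.mul_apply, Fin.sum_univ_two, -ZMod.natCast_val]
  linear_combination he

/-- Representatives for two different primes commute up to translations. -/
theorem exists_swap {M l m : ℕ} (hl : l.Prime) (hm : m.Prime) (hlm : l ≠ m) (x : Option (ZMod l))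
    (y : Option (ZMod m)) :
    ∃ x' : Option (ZMod l), ∃ y' : Option (ZMod m), ∃ e : ℤ, (x' = none ↔ x = none) ∧
      (y' = none ↔ y = none) ∧
      Periods.tRep l x * Periods.tRep m y =
        coeMat (shiftLevel M e) * (Periods.tRep m y' * Periods.tRep l x') := by
  have : NeZero l := ⟨hl.ne_zero⟩
  have : NeZero m := ⟨hm.ne_zero⟩
  have hcop : Nat.Coprime l m := (Nat.coprime_primes hl hm).mpr hlm
  cases x with
  | none =>
    cases y with
    | none =>
      refine ⟨none, none, 0, Iff.rfl, Iff.rfl, ?_⟩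
      rw [tRep_none_eq, tRep_none_eq, coeMat_shiftLevel]
      ext a b
      fin_cases a <;> fin_cases b <;> simp [Matrix.mul_apply, Fin.sum_univ_two, mul_comm]
    | some j =>
      obtain ⟨j', e, he⟩ := exists_swap_diag (M := M) (l : ℤ) j
      exact ⟨none, some j', e, Iff.rfl, by simp, by rw [tRep_none_eq]; exact he⟩
  | some i =>
    cases y with
    | none =>
      set u := ZMod.unitOfCoprime m hcop.symm
      obtain ⟨e, he⟩ : (l : ℤ) ∣ (i.val : ℤ) - (m : ℤ) * (((↑u⁻¹ : ZMod l) * i).val : ℤ) := by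
        rw [← ZMod.intCast_zmod_eq_zero_iff_dvd]
        have hu : (m : ZMod l) * (↑u⁻¹ : ZMod l) = 1 := by
          rw [← ZMod.coe_unitOfCoprime m hcop.symm]
          exact u.mul_inv
        simp [← mul_assoc, hu]
      refine ⟨some ((↑u⁻¹ : ZMod l) * i), none, e, by simp, Iff.rfl, ?_⟩
      rw [tRep_none_eq, tRep_some_eq, tRep_some_eq, coeMat_shiftLevel]
      ext a b
      fin_cases a <;> fin_cases b <;>
        simp [Matrix.mul_apply, Fin.sum_univ_two, -ZMod.natCast_val]
      linear_combination he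
    | some j =>
      obtain ⟨s, t, hst⟩ : IsCoprime (l : ℤ) (m : ℤ) :=
        Int.isCoprime_iff_gcd_eq_one.mpr (by simpa [Int.gcd] using hcop)
      set b : ℤ := (j.val : ℤ) + (i.val : ℤ) * m with hb
      -- `b ≡ x' + l y' (mod l m)`
      set x' : ZMod l := (b : ZMod l) with hx
      obtain ⟨c, hc⟩ : (l : ℤ) ∣ b - (x'.val : ℤ) := by
        rw [← ZMod.intCast_zmod_eq_zero_iff_dvd]
        simp [x']
      set y' : ZMod m := (c : ZMod m) with hy
      obtain ⟨e, he⟩ : (m : ℤ) ∣ c - (y'.val : ℤ) := by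
        rw [← ZMod.intCast_zmod_eq_zero_iff_dvd]
        simp [y']
      refine ⟨some x', some y', e, by simp, by simp, ?_⟩
      rw [tRep_some_eq, tRep_some_eq, tRep_some_eq, tRep_some_eq, coeMat_shiftLevel]
      ext a b'
      fin_cases a <;> fin_cases b' <;>
        simp [Matrix.mul_apply, Fin.sum_univ_two, -ZMod.natCast_val]
      · linear_combination hc + (l : ℤ) * he - hb
      · ring

/-- The products of representatives for two different primes lie in different cosets. -/
theorem mul_tRep_sep {l m : ℕ} (hl : l.Prime) (hm : m.Prime) (hlm : l ≠ m) (δ : SL(2, ℤ))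
    (x x' : Option (ZMod l)) (y y' : Option (ZMod m))
    (h : Periods.tRep l x * Periods.tRep m y =
      (δ : Matrix (Fin 2) (Fin 2) ℤ) * (Periods.tRep l x' * Periods.tRep m y')) :
    x = x' ∧ y = y' := by
  have : NeZero l := ⟨hl.ne_zero⟩
  have : NeZero m := ⟨hm.ne_zero⟩
  have hl0 : (0 : ℤ) < l := by exact_mod_cast hl.pos
  have hm0 : (0 : ℤ) < m := by exact_mod_cast hm.pos
  have hl1 : (l : ℤ) ≠ 1 := by exact_mod_cast hl.ne_one
  have hm1 : (m : ℤ) ≠ 1 := by exact_mod_cast hm.ne_one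
  have hne : (l : ℤ) ≠ m := by exact_mod_cast hlm
  have hlm1 : (l : ℤ) * m ≠ 1 := fun hh ↦ hl1 (Int.eq_one_of_mul_eq_one_right hl0.le hh)
  have hlml : (l : ℤ) * m ≠ l := fun hh ↦
    hm1 (mul_left_cancel₀ hl0.ne' (hh.trans (mul_one _).symm))
  have hlmm : (l : ℤ) * m ≠ m := fun hh ↦
    hl1 (mul_right_cancel₀ hm0.ne' (hh.trans (one_mul _).symm))
  have hcop : IsCoprime (l : ℤ) (m : ℤ) :=
    Int.isCoprime_iff_gcd_eq_one.mpr (by simpa [Int.gcd] using (Nat.coprime_primes hl hm).mpr hlm)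
  have prod : ∀ a b d a' b' d' : ℤ, !![a, b; 0, d] * !![a', b'; 0, d'] =
      !![a * a', a * b' + b * d'; 0, d * d'] := fun a b d a' b' d' ↦ by
    ext i j
    fin_cases i <;> fin_cases j <;> simp [Matrix.mul_apply, Fin.sum_univ_two]
  have val_eq : ∀ {n : ℕ} [NeZero n] {u v : ZMod n}, (n : ℤ) ∣ (u.val : ℤ) - (v.val : ℤ) →
      u = v := fun {n} _ u v hh ↦ by
    have := (ZMod.intCast_zmod_eq_zero_iff_dvd _ _).mpr hh
    simpa [sub_eq_zero] using this
  cases x <;> cases x' <;> cases y <;> cases y' <;>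
    simp only [tRep_none_eq, tRep_some_eq, prod, one_mul, mul_one, mul_zero, zero_mul, zero_add,
      add_zero] at h <;>
    obtain ⟨h1, -, h3⟩ := upper_eq_of_eq_mul
      (by first | exact one_pos | positivity) (by first | exact one_pos | positivity)
      (by first | exact one_pos | positivity) δ h <;>
    first
    | exact ⟨rfl, rfl⟩
    | (exfalso; first
        | exact hl1 h1 | exact hl1 h1.symm | exact hm1 h1 | exact hm1 h1.symm
        | exact hne h1 | exact hne h1.symm | exact hlm1 h1 | exact hlm1 h1.symm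
        | exact hlml h1 | exact hlml h1.symm | exact hlmm h1 | exact hlmm h1.symm)
    | skip
  · -- diagonal at `l`, upper at `m`
    rename_i j j'
    refine ⟨rfl, congrArg some (val_eq ?_)⟩
    have : (m : ℤ) ∣ (l : ℤ) * ((j.val : ℤ) - (j'.val : ℤ)) := by rwa [mul_sub]
    exact hcop.symm.dvd_of_dvd_mul_left this
  · rename_i i i'
    exact ⟨congrArg some (val_eq h3), rfl⟩
  · rename_i i i' j j'
    have h4 : (m : ℤ) ∣ (j.val : ℤ) - (j'.val : ℤ) := by
      have := (dvd_mul_left (m : ℤ) l).trans h3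
      obtain ⟨c, hc⟩ := this
      exact ⟨c - (i.val : ℤ) + (i'.val : ℤ), by linear_combination hc⟩
    obtain rfl := val_eq h4
    obtain ⟨c, hc⟩ := h3
    have h5 : (l : ℤ) ∣ (i.val : ℤ) - (i'.val : ℤ) :=
      ⟨c, mul_right_cancel₀ hm0.ne' (by linear_combination hc)⟩
    exact ⟨congrArg some (val_eq h5), rfl⟩

end FermatAgent.RTLift.Modules
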