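import Mathlib
import Fermat.Agent.RTLift.Modules.Upper

/-!
Identities between the concrete operators on cohomology: the operators at different primes
commute and commute with the degeneracy maps; the relations at a common prime.
-/

set_option autoImplicit false

namespace FermatAgent.RTLift.Modules

open scoped MatrixGroups
open CongruenceSubgroup

variable {Λ : Type*} [CommRing Λ] {M₀ M M' : ℕ}

namespace CrossCorr

variable {h : M₀ ∣ M} {θ : (ZMod M₀)ˣ →* Λ} {χ' : Gamma0 M' →* Λ} {ι κ : Type*} [Fintype ι]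
  [Fintype κ] {A : Type*} [AddCommGroup A] [Module Λ A]

/-- Two correspondences with separated representatives of the same cosets are equal in cohomology. -/
theorem IsDelta.onH1_eq_of_exists {D : CrossCorr (levelChar h θ) χ' ι} (hD : D.IsDelta θ)
    (hsep : D.Sep) {D' : CrossCorr (levelChar h θ) χ' κ} (hD' : D'.IsDelta θ) (hsep' : D'.Sep)
    (hcard : Fintype.card κ = Fintype.card ι)
    (hex : ∀ i, ∃ j, ∃ u : Gamma0 M, D'.rep i = coeMat u * D.rep j) :
    D'.onH1 A = D.onH1 A := by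
  choose e u hrep using hex
  have hinj : Function.Injective e := fun i k hik ↦ by
    refine hsep' (u i * (u k)⁻¹) i k ?_
    rw [coeMat_mul, mul_assoc, hrep k, coeMat_inv_mul, hrep i, hik]
  exact IsDelta.onH1_eq hD hsep hD'
    (Equiv.ofBijective e ((Fintype.bijective_iff_injective_and_card e).mpr ⟨hinj, hcard⟩)) u hrep

end CrossCorr

open CrossCorr

variable (h : M₀ ∣ M) (h' : M₀ ∣ M') (θ : (ZMod M₀)ˣ →* Λ) {A : Type*} [AddCommGroup A]
  [Module Λ A]

variable (A) in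
/-- `T_l` on cohomology. -/
noncomputable def heckeT {l : ℕ} (hl : l.Prime) (hlM : ¬ l ∣ M) :
    H1 (levelChar h θ) A →ₗ[Λ] H1 (levelChar h θ) A :=
  have : NeZero l := ⟨hl.ne_zero⟩
  (tCross h θ hl hlM).onH1 A

variable (A) in
/-- `U_q` on cohomology. -/
noncomputable def heckeU {q : ℕ} [NeZero q] (hq : q ∣ M) :
    H1 (levelChar h θ) A →ₗ[Λ] H1 (levelChar h θ) A :=
  (uCross h θ hq).onH1 A

variable (A) in
/-- The first degeneracy map on cohomology. -/
noncomputable def degI (hMM : M ∣ M') : H1 (levelChar h θ) A →ₗ[Λ] H1 (levelChar h' θ) A :=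
  (inclCross h h' θ hMM).onH1 A

variable (A) in
/-- The second degeneracy map on cohomology. -/
noncomputable def degD {q : ℕ} [NeZero q] (hc : q.Coprime M₀) (hMM : M * q ∣ M') :
    H1 (levelChar h θ) A →ₗ[Λ] H1 (levelChar h' θ) A :=
  (degCross h h' θ hc hMM).onH1 A

variable (A) in
/-- The trace on cohomology. -/
noncomputable def trace [NeZero M'] :
    H1 (levelChar h' θ) A →ₗ[Λ] H1 (levelChar h θ) A :=
  have : Fintype (TrPts M M') := Fintype.ofFinite _
  (trCross h h' θ).onH1 A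

theorem heckeT_comm {l m : ℕ} (hl : l.Prime) (hlM : ¬ l ∣ M) (hm : m.Prime) (hmM : ¬ m ∣ M)
    (x : H1 (levelChar h θ) A) :
    heckeT h θ A hl hlM (heckeT h θ A hm hmM x) = heckeT h θ A hm hmM (heckeT h θ A hl hlM x) := by
  rcases eq_or_ne l m with rfl | hlm
  · rfl
  have : NeZero l := ⟨hl.ne_zero⟩
  have : NeZero m := ⟨hm.ne_zero⟩
  rw [heckeT, heckeT, ← comp_onH1, ← comp_onH1]
  refine LinearMap.congr_fun (IsDelta.onH1_eq_of_exists
    (IsDelta.comp (isDelta_tCross h θ hm hmM) (isDelta_tCross h θ hl hlM))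
    (fun δ i j hd ↦ ?_) (IsDelta.comp (isDelta_tCross h θ hl hlM) (isDelta_tCross h θ hm hmM))
    (fun δ i j hd ↦ ?_) ?_ fun i ↦ ?_) x
  · obtain ⟨e1, e2⟩ := mul_tRep_sep hl hm hlm δ i.1 j.1 i.2 j.2 hd
    exact Prod.ext e1 e2
  · obtain ⟨e1, e2⟩ := mul_tRep_sep hm hl hlm.symm δ i.1 j.1 i.2 j.2 hd
    exact Prod.ext e1 e2
  · simp [mul_comm]
  · obtain ⟨y, x', e, -, -, he⟩ := exists_swap (M := M) hm hl hlm.symm i.1 i.2
    exact ⟨(x', y), shiftLevel M e, he⟩

theorem heckeU_heckeT {q : ℕ} [NeZero q] (hqp : q.Prime) (hq : q ∣ M) {l : ℕ} (hl : l.Prime)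
    (hlM : ¬ l ∣ M) (x : H1 (levelChar h θ) A) :
    heckeU h θ A hq (heckeT h θ A hl hlM x) = heckeT h θ A hl hlM (heckeU h θ A hq x) := by
  have : NeZero l := ⟨hl.ne_zero⟩
  have hlq : l ≠ q := fun e ↦ hlM (e ▸ hq)
  rw [heckeU, heckeT, ← comp_onH1, ← comp_onH1]
  refine LinearMap.congr_fun (IsDelta.onH1_eq_of_exists
    (IsDelta.comp (isDelta_tCross h θ hl hlM) (isDelta_uCross h θ hq))
    (fun δ i j hd ↦ ?_) (IsDelta.comp (isDelta_uCross h θ hq) (isDelta_tCross h θ hl hlM))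
    (fun δ i j hd ↦ ?_) ?_ fun i ↦ ?_) x
  · obtain ⟨e1, e2⟩ := mul_tRep_sep hqp hl hlq.symm δ (some i.1) (some j.1) i.2 j.2 hd
    exact Prod.ext (Option.some_injective _ e1) e2
  · obtain ⟨e1, e2⟩ := mul_tRep_sep hl hqp hlq δ i.1 j.1 (some i.2) (some j.2) hd
    exact Prod.ext e1 (Option.some_injective _ e2)
  · simp [mul_comm]
  · obtain ⟨y, x', e, -, hx, he⟩ := exists_swap (M := M) hl hqp hlq i.1 (some i.2)
    cases x' with
    | none => exact absurd (hx.mp rfl) (by simp)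
    | some x' => exact ⟨(x', y), shiftLevel M e, he⟩

theorem heckeU_comm {q r : ℕ} [NeZero q] [NeZero r] (hqp : q.Prime) (hq : q ∣ M) (hrp : r.Prime)
    (hr : r ∣ M) (x : H1 (levelChar h θ) A) :
    heckeU h θ A hq (heckeU h θ A hr x) = heckeU h θ A hr (heckeU h θ A hq x) := by
  rcases eq_or_ne q r with rfl | hqr
  · rfl
  rw [heckeU, heckeU, ← comp_onH1, ← comp_onH1]
  refine LinearMap.congr_fun (IsDelta.onH1_eq_of_exists
    (IsDelta.comp (isDelta_uCross h θ hr) (isDelta_uCross h θ hq))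
    (fun δ i j hd ↦ ?_) (IsDelta.comp (isDelta_uCross h θ hq) (isDelta_uCross h θ hr))
    (fun δ i j hd ↦ ?_) ?_ fun i ↦ ?_) x
  · obtain ⟨e1, e2⟩ := mul_tRep_sep hqp hrp hqr δ (some i.1) (some j.1) (some i.2) (some j.2) hd
    exact Prod.ext (Option.some_injective _ e1) (Option.some_injective _ e2)
  · obtain ⟨e1, e2⟩ :=
      mul_tRep_sep hrp hqp hqr.symm δ (some i.1) (some j.1) (some i.2) (some j.2) hd
    exact Prod.ext (Option.some_injective _ e1) (Option.some_injective _ e2)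
  · simp [mul_comm]
  · obtain ⟨y', x', e, hy, hx, he⟩ := exists_swap (M := M) hrp hqp hqr.symm (some i.1) (some i.2)
    cases x' with
    | none => exact absurd (hx.mp rfl) (by simp)
    | some x' =>
      cases y' with
      | none => exact absurd (hy.mp rfl) (by simp)
      | some y' => exact ⟨(x', y'), shiftLevel M e, he⟩

theorem degI_heckeT (hMM : M ∣ M') {l : ℕ} (hl : l.Prime) (hlM : ¬ l ∣ M')
    (x : H1 (levelChar h θ) A) :
    heckeT h' θ A hl hlM (degI h h' θ A hMM x) =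
      degI h h' θ A hMM (heckeT h θ A hl (fun hd ↦ hlM (hd.trans hMM)) x) := by
  have : NeZero l := ⟨hl.ne_zero⟩
  rw [heckeT, heckeT, degI, ← comp_onH1, ← comp_onH1]
  refine LinearMap.congr_fun (IsDelta.onH1_eq_of_exists
    (IsDelta.comp (isDelta_inclCross h h' θ hMM) (isDelta_tCross h θ hl _))
    (fun δ i j hd ↦ ?_) (IsDelta.comp (isDelta_tCross h' θ hl hlM) (isDelta_inclCross h h' θ hMM))
    (fun δ i j hd ↦ ?_) (by simp) fun i ↦ ⟨(i.2, ()), 1, ?_⟩) x
  · simp [CrossCorr.comp, inclCross, tCross, CrossCorr.ofDelta] at hd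
    exact Prod.ext (Periods.tRep_sep hl (δ : SL(2, ℤ)) _ _ hd) rfl
  · simp [CrossCorr.comp, inclCross, tCross, CrossCorr.ofDelta] at hd
    exact Prod.ext rfl (Periods.tRep_sep hl (δ : SL(2, ℤ)) _ _ hd)
  · simp [CrossCorr.comp, inclCross, tCross, CrossCorr.ofDelta, coeMat]

theorem degI_heckeU (hMM : M ∣ M') {q : ℕ} [NeZero q] (hq : q ∣ M)
    (x : H1 (levelChar h θ) A) :
    heckeU h' θ A (hq.trans hMM) (degI h h' θ A hMM x) = degI h h' θ A hMM (heckeU h θ A hq x) := by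
  rw [heckeU, heckeU, degI, ← comp_onH1, ← comp_onH1]
  refine LinearMap.congr_fun (IsDelta.onH1_eq_of_exists
    (IsDelta.comp (isDelta_inclCross h h' θ hMM) (isDelta_uCross h θ hq))
    (fun δ i j hd ↦ ?_)
    (IsDelta.comp (isDelta_uCross h' θ (hq.trans hMM)) (isDelta_inclCross h h' θ hMM))
    (fun δ i j hd ↦ ?_) (by simp) fun i ↦ ⟨(i.2, ()), 1, ?_⟩) x
  · simp [CrossCorr.comp, inclCross, uCross, CrossCorr.ofDelta, -ZMod.natCast_val] at hd
    exact Prod.ext (Periods.upperRep_sep (δ : SL(2, ℤ)) hd) rfl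
  · simp [CrossCorr.comp, inclCross, uCross, CrossCorr.ofDelta, -ZMod.natCast_val] at hd
    exact Prod.ext rfl (Periods.upperRep_sep (δ : SL(2, ℤ)) hd)
  · simp [CrossCorr.comp, inclCross, uCross, CrossCorr.ofDelta, coeMat]

theorem degD_heckeT {q : ℕ} [NeZero q] (hqp : q.Prime) (hc : q.Coprime M₀) (hMM : M * q ∣ M')
    {l : ℕ} (hl : l.Prime) (hlM : ¬ l ∣ M') (x : H1 (levelChar h θ) A) :
    heckeT h' θ A hl hlM (degD h h' θ A hc hMM x) =
      degD h h' θ A hc hMM
        (heckeT h θ A hl (fun hd ↦ hlM (hd.trans ((dvd_mul_right M q).trans hMM))) x) := by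
  have : NeZero l := ⟨hl.ne_zero⟩
  have hlq : l ≠ q := fun e ↦ hlM (e ▸ (dvd_mul_left q M).trans hMM)
  rw [heckeT, heckeT, degD, ← comp_onH1, ← comp_onH1]
  refine LinearMap.congr_fun (IsDelta.onH1_eq_of_exists
    (IsDelta.comp (isDelta_degCross h h' θ hc hMM) (isDelta_tCross h θ hl _))
    (fun δ i j hd ↦ ?_) (IsDelta.comp (isDelta_tCross h' θ hl hlM) (isDelta_degCross h h' θ hc hMM))
    (fun δ i j hd ↦ ?_) (by simp) fun i ↦ ?_) x
  · obtain ⟨e1, -⟩ := mul_tRep_sep hl hqp hlq δ i.1 j.1 none none hd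
    exact Prod.ext e1 rfl
  · obtain ⟨-, e2⟩ := mul_tRep_sep hqp hl hlq.symm δ none none i.2 j.2 hd
    exact Prod.ext rfl e2
  · obtain ⟨q', y, e, hq', -, he⟩ := exists_swap (M := M) hqp hl hlq.symm none i.2
    obtain rfl := hq'.mpr rfl
    exact ⟨(y, ()), shiftLevel M e, he⟩

theorem degD_heckeU {q : ℕ} [NeZero q] (hqp : q.Prime) (hc : q.Coprime M₀) (hMM : M * q ∣ M')
    {r : ℕ} [NeZero r] (hrp : r.Prime) (hrq : r ≠ q) (hr : r ∣ M) (x : H1 (levelChar h θ) A) :
    heckeU h' θ A (hr.trans ((dvd_mul_right M q).trans hMM)) (degD h h' θ A hc hMM x) =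
      degD h h' θ A hc hMM (heckeU h θ A hr x) := by
  rw [heckeU, heckeU, degD, ← comp_onH1, ← comp_onH1]
  refine LinearMap.congr_fun (IsDelta.onH1_eq_of_exists
    (IsDelta.comp (isDelta_degCross h h' θ hc hMM) (isDelta_uCross h θ hr))
    (fun δ i j hd ↦ ?_) (IsDelta.comp (isDelta_uCross h' θ _) (isDelta_degCross h h' θ hc hMM))
    (fun δ i j hd ↦ ?_) (by simp) fun i ↦ ?_) x
  · obtain ⟨e1, -⟩ := mul_tRep_sep hrp hqp hrq δ (some i.1) (some j.1) none none hd
    exact Prod.ext (Option.some_injective _ e1) rfl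
  · obtain ⟨-, e2⟩ := mul_tRep_sep hqp hrp hrq.symm δ none none (some i.2) (some j.2) hd
    exact Prod.ext rfl (Option.some_injective _ e2)
  · obtain ⟨q', y, e, hq', hy, he⟩ := exists_swap (M := M) hqp hrp hrq.symm none (some i.2)
    obtain rfl := hq'.mpr rfl
    cases y with
    | none => exact absurd (hy.mp rfl) (by simp)
    | some y => exact ⟨(y, ()), shiftLevel M e, he⟩

end FermatAgent.RTLift.Modules
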