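import Mathlib
import Fermat.Agent.RTLift.Modules.Identities

/-!
The trace commutes with the Hecke operators; its composites with the degeneracy maps; the
relations between `T_q` and `U_q`.
-/

set_option autoImplicit false

namespace FermatAgent.RTLift.Modules

open scoped MatrixGroups
open CongruenceSubgroup

variable {Λ : Type*} [CommRing Λ] {M₀ M M' : ℕ}

namespace CrossCorr

variable {Γ Γ' : Subgroup SL(2, ℤ)} {χ : Γ →* Λ} {χ' : Γ' →* Λ} {ι : Type*}

/-- A scalar correspondence along an inclusion, with a given permutation action. -/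
def const (hΓ : Γ' ≤ Γ) (hχ : ∀ γ : Γ', χ (Subgroup.inclusion hΓ γ) = χ' γ) (c : ℤ) (hc : c ≠ 0)
    (w : Λ) (target : Γ' → ι → ι) (target_one : ∀ i, target 1 i = i)
    (target_mul : ∀ γ η i, target (γ * η) i = target η (target γ i)) : CrossCorr χ χ' ι where
  rep _ := c • (1 : Matrix (Fin 2) (Fin 2) ℤ)
  det_ne _ := by rw [Matrix.det_smul]; simp [hc]
  weight _ := w
  target := target
  target_one := target_one
  target_mul := target_mul
  move γ _ := Subgroup.inclusion hΓ γ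
  move_spec γ _ := by rw [smul_mul_assoc, one_mul, mul_smul_comm, mul_one]; rfl
  weight_move γ _ := by rw [hχ, mul_comm]

theorem const_apply [Fintype ι] {A : Type*} [AddCommGroup A] [Module Λ A] (hΓ : Γ' ≤ Γ)
    (hχ : ∀ γ : Γ', χ (Subgroup.inclusion hΓ γ) = χ' γ) (c : ℤ) (hc : c ≠ 0) (w : Λ)
    (target : Γ' → ι → ι) (h1 : ∀ i, target 1 i = i)
    (h2 : ∀ γ η i, target (γ * η) i = target η (target γ i)) (f : crossedHoms χ A) (γ : Γ') :
    ((const hΓ hχ c hc w target h1 h2).apply f : Γ' → A) γ =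
      Fintype.card ι • w • (f : Γ → A) (Subgroup.inclusion hΓ γ) := by
  simp [apply_apply, const, Finset.sum_const]

end CrossCorr

open CrossCorr

variable (h : M₀ ∣ M) (h' : M₀ ∣ M') (θ : (ZMod M₀)ˣ →* Λ) {A : Type*} [AddCommGroup A]
  [Module Λ A]

theorem levelChar_inclusion (hMM : M ∣ M') (γ : Gamma0 M') :
    levelChar h θ (Subgroup.inclusion (gamma0_le_of_dvd hMM) γ) = levelChar h' θ γ := rfl

theorem out_inv_mul_mem {x y : TrPts M M'}
    (hxy : ((x.out)⁻¹ * y.out : Gamma0 M).1 ∈ Gamma0 M') : x = y := by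
  rw [← QuotientGroup.out_eq' x, ← QuotientGroup.out_eq' y]
  exact QuotientGroup.eq.mpr (Subgroup.mem_subgroupOf.mpr hxy)

/-- Decomposition of an element of `Γ₀(M)` along the cosets. -/
theorem exists_trace_decomp (δ : Gamma0 M) :
    ∃ y : TrPts M M', ∃ u : Gamma0 M', coeMat δ = coeMat u * coeMat (y.out)⁻¹ := by
  refine ⟨((δ⁻¹ : Gamma0 M) : TrPts M M'), ?_⟩
  set y : TrPts M M' := ((δ⁻¹ : Gamma0 M) : TrPts M M') with hy
  have hmem : δ * y.out ∈ (Gamma0 M').subgroupOf (Gamma0 M) := by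
    have := QuotientGroup.eq.mp (show ((δ⁻¹ : Gamma0 M) : TrPts M M') = (y.out : TrPts M M') by
      rw [QuotientGroup.out_eq'])
    simpa using this
  refine ⟨⟨((δ * y.out : Gamma0 M) : SL(2, ℤ)), Subgroup.mem_subgroupOf.mp hmem⟩, ?_⟩
  show _ = (((δ * y.out : Gamma0 M) : SL(2, ℤ)) : Matrix (Fin 2) (Fin 2) ℤ) * coeMat (y.out)⁻¹
  rw [show (((δ * y.out : Gamma0 M) : SL(2, ℤ)) : Matrix (Fin 2) (Fin 2) ℤ) = coeMat (δ * y.out)
    from rfl, ← coeMat_mul, mul_inv_cancel_right]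

theorem mem_gamma0_of_upper {a b d : ℤ} {η δ : SL(2, ℤ)} {a' b' d' : ℤ} {N : ℕ}
    (hδ : δ ∈ Gamma0 N) (hd : IsCoprime d (N : ℤ))
    (he : !![a, b; 0, d] * (η : Matrix (Fin 2) (Fin 2) ℤ) =
      (δ : Matrix (Fin 2) (Fin 2) ℤ) * !![a', b'; 0, d']) : η ∈ Gamma0 N := by
  have h10 := congrFun (congrFun he 1) 0
  simp [Matrix.mul_apply, Fin.sum_univ_two] at h10
  refine Gamma0_mem.mpr ((ZMod.intCast_zmod_eq_zero_iff_dvd _ _).mpr
    (hd.symm.dvd_of_dvd_mul_left ?_))
  rw [h10]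
  exact ((ZMod.intCast_zmod_eq_zero_iff_dvd _ _).mp (Gamma0_mem.mp hδ)).mul_right _

theorem exists_tRep_shape {l : ℕ} (i : Option (ZMod l)) :
    ∃ a b d : ℤ, Periods.tRep l i = !![a, b; 0, d] ∧ (d = 1 ∨ d = l) := by
  cases i with
  | none => exact ⟨l, 0, 1, rfl, Or.inl rfl⟩
  | some j => exact ⟨1, j.val, l, rfl, Or.inr rfl⟩

theorem trace_heckeT [NeZero M'] (hMM : M ∣ M') {l : ℕ} (hl : l.Prime) (hlM : ¬ l ∣ M')
    (z : H1 (levelChar h' θ) A) :
    heckeT h θ A hl (fun hd ↦ hlM (hd.trans hMM)) (trace h h' θ A z) =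
      trace h h' θ A (heckeT h' θ A hl hlM z) := by
  have : NeZero l := ⟨hl.ne_zero⟩
  have hcop : IsCoprime (l : ℤ) (M' : ℤ) :=
    Int.isCoprime_iff_gcd_eq_one.mpr (by simpa [Int.gcd] using hl.coprime_iff_not_dvd.mpr hlM)
  let : Fintype (TrPts M M') := Fintype.ofFinite _
  rw [heckeT, heckeT, trace, ← comp_onH1, ← comp_onH1]
  refine (LinearMap.congr_fun (IsDelta.onH1_eq_of_exists
    (IsDelta.comp (isDelta_tCross h θ hl _) (isDelta_trCross h h' θ))
    (fun δ i j hd ↦ ?_)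
    (IsDelta.comp (isDelta_trCross h h' θ) (isDelta_tCross h' θ hl hlM))
    (fun δ i j hd ↦ ?_) (by simp [mul_comm]) fun i ↦ ?_) z).symm
  · -- representatives `β * t`
    obtain ⟨x, t⟩ := i
    obtain ⟨x', t'⟩ := j
    have hd' : coeMat ((x.out)⁻¹) * Periods.tRep l t =
        coeMat δ * (coeMat ((x'.out)⁻¹) * Periods.tRep l t') := hd
    set δM : Gamma0 M := x.out * Subgroup.inclusion (gamma0_le_of_dvd hMM) δ * (x'.out)⁻¹ with hδM
    have he : Periods.tRep l t = coeMat δM * Periods.tRep l t' := by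
      have := congrArg (coeMat x.out * ·) hd'
      simp only [← mul_assoc, ← coeMat_mul, mul_inv_cancel, coeMat_one, one_mul] at this
      rw [this, hδM, coeMat_mul, coeMat_mul]
      rfl
    obtain rfl := Periods.tRep_sep hl (δM : SL(2, ℤ)) _ _ he
    have h2 : coeMat ((x.out)⁻¹) = coeMat δ * coeMat ((x'.out)⁻¹) :=
      Periods.matrix_mul_right_cancel (C := Periods.tRep l t)
        (by rw [Periods.det_tRep]; exact_mod_cast hl.ne_zero)
        (by rw [hd', mul_assoc])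
    suffices hx : x = x' by rw [hx]
    refine out_inv_mul_mem ?_
    have h3 : (x.out)⁻¹ * x'.out = Subgroup.inclusion (gamma0_le_of_dvd hMM) δ :=
      coeMat_injective (by
        rw [coeMat_mul, h2, mul_assoc, ← coeMat_mul, inv_mul_cancel, coeMat_one, mul_one]
        rfl)
    rw [h3]
    exact δ.2
  · -- representatives `t * β`
    obtain ⟨t, x⟩ := i
    obtain ⟨t', x'⟩ := j
    have hd' : Periods.tRep l t * coeMat ((x.out)⁻¹) =
        coeMat δ * (Periods.tRep l t' * coeMat ((x'.out)⁻¹)) := hd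
    have he : Periods.tRep l t * coeMat ((x.out)⁻¹ * x'.out) = coeMat δ * Periods.tRep l t' := by
      rw [coeMat_mul, ← mul_assoc, hd', mul_assoc, mul_assoc, ← coeMat_mul, inv_mul_cancel,
        coeMat_one, mul_one]
    obtain ⟨a, b, d, hs, hd1⟩ := exists_tRep_shape t
    obtain ⟨a', b', d', hs', -⟩ := exists_tRep_shape t'
    have hd2 : IsCoprime d (M' : ℤ) := by
      rcases hd1 with rfl | rfl
      · exact isCoprime_one_left
      · exact hcop
    have hη : (((x.out)⁻¹ * x'.out : Gamma0 M) : SL(2, ℤ)) ∈ Gamma0 M' :=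
      mem_gamma0_of_upper δ.2 hd2 (by
        have he' := he
        rw [hs, hs'] at he'
        exact he')
    obtain rfl := out_inv_mul_mem hη
    rw [inv_mul_cancel, coeMat_one, mul_one] at he
    exact Prod.ext (Periods.tRep_sep hl (δ : SL(2, ℤ)) _ _ he) rfl
  · obtain ⟨t, x⟩ := i
    let T := tCross h θ hl fun hd ↦ hlM (hd.trans hMM)
    obtain ⟨y, u, hu⟩ := exists_trace_decomp (M' := M') (T.move ((x.out)⁻¹) t)
    refine ⟨(y, T.target ((x.out)⁻¹) t), u, ?_⟩
    show Periods.tRep l t * coeMat ((x.out)⁻¹) = coeMat u * (coeMat ((y.out)⁻¹) * _)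
    rw [← mul_assoc, ← hu]
    exact T.move_spec _ _

end FermatAgent.RTLift.Modules
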