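import Mathlib
import Fermat.Agent.RTLift.Modules.Trace
import Fermat.Agent.RTLift.Modules.LocalProjective

/-!
The cohomology of a level with a character as a module over a polynomial ring in Hecke symbols,
its non-Eisenstein local part, projectivity and change of coefficients.
-/

set_option autoImplicit false

namespace FermatAgent.RTLift.Modules

open scoped MatrixGroups
open CongruenceSubgroup

/-- Polynomials in pairwise commuting endomorphisms. -/
noncomputable def commAeval {R : Type*} [CommRing R] {E : Type*} [Ring E] [Algebra R E]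
    {J : Type*} (f : J → E) (hf : ∀ i j, f i * f j = f j * f i) : MvPolynomial J R →ₐ[R] E :=
  let S := Algebra.adjoin R (Set.range f)
  haveI hcomm : IsMulCommutative S := Algebra.isMulCommutative_adjoin R (by
    rintro _ ⟨i, rfl⟩ _ ⟨j, rfl⟩
    exact hf i j)
  letI : CommRing S :=
    { (inferInstance : Ring S) with mul_comm := hcomm.is_comm.comm }
  S.val.comp (MvPolynomial.aeval fun i ↦ (⟨f i, Algebra.subset_adjoin ⟨i, rfl⟩⟩ : S))

@[simp] theorem commAeval_X {R : Type*} [CommRing R] {E : Type*} [Ring E] [Algebra R E]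
    {J : Type*} (f : J → E) (hf : ∀ i j, f i * f j = f j * f i) (j : J) :
    commAeval (R := R) f hf (MvPolynomial.X j) = f j := by
  simp [commAeval]

/-- Two such evaluations intertwined by a linear map. -/
theorem commAeval_comm {R Λ : Type*} [CommRing R] [CommRing Λ] [Algebra R Λ] {H H' : Type*}
    [AddCommGroup H] [Module Λ H] [Module R H] [IsScalarTower R Λ H] [AddCommGroup H'] [Module Λ H']
    [Module R H'] [IsScalarTower R Λ H'] {J : Type*} (f : J → Module.End Λ H)
    (hf : ∀ i j, f i * f j = f j * f i) (f' : J → Module.End Λ H')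
    (hf' : ∀ i j, f' i * f' j = f' j * f' i) (u : H →ₗ[Λ] H')
    (hu : ∀ j x, u (f j x) = f' j (u x)) (s : MvPolynomial J R) (x : H) :
    u (commAeval f hf s x) = commAeval f' hf' s (u x) := by
  induction s using MvPolynomial.induction_on generalizing x with
  | C r => simp [← MvPolynomial.algebraMap_eq, Module.algebraMap_end_apply,
      LinearMap.map_smul_of_tower]
  | add a b ha hb => simp [ha, hb]
  | mul_X a j ha => simp [ha, hu]

variable {Λ : Type} [CommRing Λ] {M₀ M : ℕ} (h : M₀ ∣ M) (θ : (ZMod M₀)ˣ →* Λ)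
  (A : Type) [AddCommGroup A] [Module Λ A]

open Classical in
/-- The Hecke operator at a prime: `U_q` when it divides the level, `T_l` otherwise. -/
noncomputable def heckeOp (l : Nat.Primes) : Module.End Λ (H1 (levelChar h θ) A) :=
  if hl : (l : ℕ) ∣ M then haveI : NeZero (l : ℕ) := ⟨l.2.ne_zero⟩; heckeU h θ A hl
  else heckeT h θ A l.2 hl

theorem heckeOp_of_dvd {l : Nat.Primes} [NeZero (l : ℕ)] (hl : (l : ℕ) ∣ M) :
    heckeOp h θ A l = heckeU h θ A hl := dif_pos hl

theorem heckeOp_of_not_dvd {l : Nat.Primes} (hl : ¬ (l : ℕ) ∣ M) :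
    heckeOp h θ A l = heckeT h θ A l.2 hl := dif_neg hl

theorem heckeOp_comm (a b : Nat.Primes) :
    heckeOp h θ A a * heckeOp h θ A b = heckeOp h θ A b * heckeOp h θ A a := by
  have : NeZero (a : ℕ) := ⟨a.2.ne_zero⟩
  have : NeZero (b : ℕ) := ⟨b.2.ne_zero⟩
  refine LinearMap.ext fun x ↦ ?_
  simp only [Module.End.mul_apply]
  by_cases ha : (a : ℕ) ∣ M <;> by_cases hb : (b : ℕ) ∣ M
  · rw [heckeOp_of_dvd h θ A ha, heckeOp_of_dvd h θ A hb]
    exact heckeU_comm h θ a.2 ha b.2 hb x
  · rw [heckeOp_of_dvd h θ A ha, heckeOp_of_not_dvd h θ A hb]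
    exact heckeU_heckeT h θ a.2 ha b.2 hb x
  · rw [heckeOp_of_not_dvd h θ A ha, heckeOp_of_dvd h θ A hb]
    exact (heckeU_heckeT h θ b.2 hb a.2 ha x).symm
  · rw [heckeOp_of_not_dvd h θ A ha, heckeOp_of_not_dvd h θ A hb]
    exact heckeT_comm h θ a.2 ha b.2 hb x

variable {A} {B : Type} [AddCommGroup B] [Module Λ B]

theorem h1Map_heckeOp (u : A →ₗ[Λ] B) (l : Nat.Primes) (x : H1 (levelChar h θ) A) :
    h1Map u (heckeOp h θ A l x) = heckeOp h θ B l (h1Map u x) := by
  have : NeZero (l : ℕ) := ⟨l.2.ne_zero⟩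
  by_cases hl : (l : ℕ) ∣ M
  · rw [heckeOp_of_dvd h θ A hl, heckeOp_of_dvd h θ B hl]
    exact (CrossCorr.onH1_h1Map _ u x).symm
  · rw [heckeOp_of_not_dvd h θ A hl, heckeOp_of_not_dvd h θ B hl]
    exact (CrossCorr.onH1_h1Map _ u x).symm

variable {R : Type} [CommRing R] [Algebra R Λ] {J : Type} (pr : J → Nat.Primes) (A)
  [Module R A] [IsScalarTower R Λ A]

/-- The polynomial ring in Hecke symbols acting on cohomology. -/
noncomputable def heckeHom : MvPolynomial J R →ₐ[R] Module.End Λ (H1 (levelChar h θ) A) :=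
  commAeval (fun j ↦ heckeOp h θ A (pr j)) fun i j ↦ heckeOp_comm h θ A (pr i) (pr j)

theorem heckeHom_X (j : J) :
    heckeHom h θ A pr (MvPolynomial.X j : MvPolynomial J R) = heckeOp h θ A (pr j) :=
  commAeval_X _ _ j

variable {A}

theorem h1Map_heckeHom [Module R B] [IsScalarTower R Λ B] (u : A →ₗ[Λ] B) (s : MvPolynomial J R)
    (x : H1 (levelChar h θ) A) :
    h1Map u (heckeHom h θ A pr s x) = heckeHom h θ B pr s (h1Map u x) :=
  commAeval_comm _ _ _ _ (h1Map u) (fun j y ↦ h1Map_heckeOp h θ u (pr j) y) s x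

section Residual

variable [IsLocalRing R] (ξ : J → IsLocalRing.ResidueField R)

/-- The maximal ideal of a residual system. -/
noncomputable def systemIdeal : Ideal (MvPolynomial J R) :=
  RingHom.ker (MvPolynomial.eval₂Hom (IsLocalRing.residue R) ξ)

theorem mem_systemIdeal {s : MvPolynomial J R} :
    s ∈ systemIdeal ξ ↔ MvPolynomial.eval₂ (IsLocalRing.residue R) ξ s = 0 := Iff.rfl

instance isMaximal_systemIdeal : (systemIdeal ξ).IsMaximal :=
  RingHom.ker_isMaximal_of_surjective _ fun x ↦ by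
    obtain ⟨r, rfl⟩ := Ideal.Quotient.mk_surjective (I := IsLocalRing.maximalIdeal R) x
    exact ⟨MvPolynomial.C r, MvPolynomial.eval₂_C _ _ r⟩

theorem exists_sub_mem_systemIdeal (s : MvPolynomial J R) :
    ∃ r : R, s - algebraMap R _ r ∈ systemIdeal ξ := by
  obtain ⟨r, hr⟩ := Ideal.Quotient.mk_surjective (I := IsLocalRing.maximalIdeal R)
    (MvPolynomial.eval₂ (IsLocalRing.residue R) ξ s)
  refine ⟨r, ?_⟩
  rw [mem_systemIdeal, MvPolynomial.eval₂_sub, MvPolynomial.algebraMap_eq, MvPolynomial.eval₂_C,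
    sub_eq_zero]
  exact hr.symm

variable (A)

/-- The local part of cohomology at a residual system. -/
noncomputable def localH1 : Submodule Λ (H1 (levelChar h θ) A) :=
  part (heckeHom h θ A pr) (systemIdeal ξ)

variable {A}

/-- A residual system is non-Eisenstein at `M₀` when one of its primes `l`, prime to the level and
congruent to `1` modulo the conductor, has `a_l ≠ l + 1`. -/
def NonEis (M₀ M : ℕ) : Prop :=
  ∃ j : J, ¬ (pr j : ℕ) ∣ M ∧ ((pr j : ℕ) : ZMod M₀) = 1 ∧
    ξ j ≠ ((pr j : ℕ) : IsLocalRing.ResidueField R) + 1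

theorem apply_tCross_coboundary {l : ℕ} [NeZero l] (hl : l.Prime) (hlM : ¬ l ∣ M)
    (hl1 : (l : ZMod M₀) = 1) (a : A) :
    (tCross h θ hl hlM).apply (coboundary (levelChar h θ) A a) =
      (l + 1 : ℕ) • coboundary (levelChar h θ) A a := by
  rw [CrossCorr.apply_coboundary, ← map_nsmul, ← Nat.cast_smul_eq_nsmul Λ]
  congr 2
  rw [Fintype.sum_option]
  simp only [tCross, CrossCorr.ofDelta, tEntry]
  rw [show ZMod.unitOfCoprime l (coprime_of_prime_not_dvd hl hlM h) = 1 from Units.ext (by simp [hl1])]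
  simp [add_comm]

variable [IsNoetherianRing R] [IsAdicComplete (IsLocalRing.maximalIdeal R) R] [Module.Finite R Λ]

omit [IsLocalRing R] [IsNoetherianRing R] [IsAdicComplete (IsLocalRing.maximalIdeal R) R]
  [Module.Finite R Λ] in
theorem finite_crossedHoms_base [NeZero M] [Module.Finite R A]
    (hχ : IsGoodChar (levelChar h θ)) : Module.Finite R (crossedHoms (levelChar h θ) A) := by
  have : Fintype (Pts (Gamma0 M)) := Fintype.ofFinite _
  exact Module.Finite.of_surjective ((hχ.retract A).restrictScalars R) hχ.retract_surjective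

/-- The non-Eisenstein part of cohomology with coefficients in `Λ` is projective. -/
theorem projective_localH1 [NeZero M] (hχ : IsGoodChar (levelChar h θ))
    (hξ : NonEis pr ξ M₀ M) :
    Module.Projective Λ (localH1 h θ Λ pr ξ) := by
  obtain ⟨j, hjM, hj1, hjξ⟩ := hξ
  have : NeZero (pr j : ℕ) := ⟨(pr j).2.ne_zero⟩
  have := hχ.projective_crossedHoms
  have := finite_crossedHoms_base (R := R) (A := Λ) h θ hχ
  refine projective_part_of_quotient (heckeHom h θ Λ pr) (systemIdeal ξ)
    (exists_sub_mem_systemIdeal ξ) (Submodule.mkQ _) (Submodule.mkQ_surjective _)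
    ((tCross h θ (pr j).2 hjM).apply) (MvPolynomial.X j) (((pr j : ℕ) + 1 : ℕ) : R)
    (fun z ↦ ?_) (fun z hz ↦ ?_) ?_
  · rw [heckeHom_X, heckeOp_of_not_dvd h θ Λ hjM]
    rfl
  · obtain ⟨a, rfl⟩ := (Submodule.Quotient.mk_eq_zero _).mp hz
    rw [apply_tCross_coboundary h θ (pr j).2 hjM hj1, Nat.cast_smul_eq_nsmul]
  · rw [mem_systemIdeal, MvPolynomial.eval₂_sub, MvPolynomial.eval₂_X, MvPolynomial.algebraMap_eq,
      MvPolynomial.eval₂_C, sub_eq_zero, map_natCast]
    push_cast
    exact hjξ

omit [IsLocalRing R] [IsNoetherianRing R] [IsAdicComplete (IsLocalRing.maximalIdeal R) R]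
  [Module.Finite R Λ] in
theorem finite_h1 [NeZero M] [Module.Finite R A] (hχ : IsGoodChar (levelChar h θ)) :
    Module.Finite R (H1 (levelChar h θ) A) :=
  have := finite_crossedHoms_base (R := R) (A := A) h θ hχ
  Module.Finite.of_surjective
    ((Submodule.mkQ (LinearMap.range (coboundary (levelChar h θ) A))).restrictScalars R)
    (Submodule.mkQ_surjective (LinearMap.range (coboundary (levelChar h θ) A)))

omit [Module.Finite R Λ] in
/-- Surjective changes of coefficients are surjective on local parts, with the expected kernel. -/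
theorem localH1_baseChange [NeZero M] (hχ : IsGoodChar (levelChar h θ)) [Module.Finite R A]
    [Module R B] [IsScalarTower R Λ B] [Module.Finite R B] (I : Ideal Λ) (u : A →ₗ[Λ] B)
    (hu : Function.Surjective u) (hk : LinearMap.ker u = I • ⊤) :
    (localH1 h θ A pr ξ).map (h1Map u) = localH1 h θ B pr ξ ∧
      ∀ x ∈ localH1 h θ A pr ξ, h1Map u x = 0 → x ∈ I • localH1 h θ A pr ξ := by
  have := finite_h1 (R := R) (A := A) h θ hχ
  have := finite_h1 (R := R) (A := B) h θ hχ
  obtain ⟨s, hs⟩ := exists_isProjector (heckeHom (R := R) h θ A pr) (systemIdeal ξ)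
  obtain ⟨s', hs'⟩ := exists_isProjector (heckeHom (R := R) h θ B pr) (systemIdeal ξ)
  refine ⟨map_part_of_surjective (h1Map u) (h1Map_heckeHom h θ pr u) hs' hs
    (hχ.h1Map_surjective u hu), fun x hx hx0 ↦ hs.mem_smul_part I hx ?_⟩
  induction x using Submodule.Quotient.induction_on with
  | H f =>
    rw [h1Map_mk, Submodule.Quotient.mk_eq_zero] at hx0
    obtain ⟨b, hb⟩ := hx0
    obtain ⟨a, rfl⟩ := hu b
    have h0 : crossedMap u (f - coboundary (levelChar h θ) A a) = 0 := by
      rw [map_sub, crossedMap_coboundary, hb, sub_self]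
    have h1 : f - coboundary (levelChar h θ) A a ∈ LinearMap.ker (crossedMap u) := h0
    rw [hχ.ker_crossedMap I u hk] at h1
    have h2 := Submodule.mem_map_of_mem
      (f := Submodule.mkQ (LinearMap.range (coboundary (levelChar h θ) A))) h1
    rw [Submodule.map_smul'', map_sub, Submodule.mkQ_apply, Submodule.mkQ_apply,
      (Submodule.Quotient.mk_eq_zero (LinearMap.range (coboundary (levelChar h θ) A))).mpr
        (LinearMap.mem_range_self (coboundary (levelChar h θ) A) a), sub_zero] at h2
    simpa using h2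

end Residual

end FermatAgent.RTLift.Modules
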