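import Mathlib
import Fermat.Agent.RTLift.Modules.Trace

/-!
Relations at one prime `q` between the levels `M` and `M q`: the cosets of `Γ₀(M q)` in `Γ₀(M)`,
the composites of the trace with the degeneracy maps, and `T_q` in terms of `U_q`.
-/

set_option autoImplicit false

namespace FermatAgent.RTLift.Modules

open scoped MatrixGroups
open CongruenceSubgroup CrossCorr

variable {Λ : Type*} [CommRing Λ] {M₀ M q : ℕ} [NeZero q] (h : M₀ ∣ M) (θ : (ZMod M₀)ˣ →* Λ)
  (hq : q.Prime) (hqM : ¬ q ∣ M)

omit [NeZero q] in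
include hq hqM in
theorem coprime_cond (h : M₀ ∣ M) : q.Coprime M₀ := coprime_of_prime_not_dvd hq hqM h

/-- The option attached to a coset. -/
noncomputable def cosetOption (x : TrPts M (M * q)) : Option (ZMod q) :=
  (Periods.tCorr M hq hqM).target ((x.out)⁻¹) none

omit [NeZero q] in
theorem diag_mul_out_inv (x : TrPts M (M * q)) :
    Periods.tRep q none * coeMat ((x.out)⁻¹) =
      coeMat ((Periods.tCorr M hq hqM).move ((x.out)⁻¹) none) *
        Periods.tRep q (cosetOption hq hqM x) :=
  (Periods.tCorr M hq hqM).move_spec ((x.out)⁻¹) none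

omit [NeZero q] in
theorem cosetOption_injective : Function.Injective (cosetOption (M := M) hq hqM) := by
  intro x y hxy
  have h1 := diag_mul_out_inv hq hqM x
  have h2 := diag_mul_out_inv hq hqM y
  rw [hxy] at h1
  set δ : Gamma0 M := (Periods.tCorr M hq hqM).move ((x.out)⁻¹) none *
    ((Periods.tCorr M hq hqM).move ((y.out)⁻¹) none)⁻¹ with hδ
  have he : Periods.tRep q none * coeMat ((x.out)⁻¹ * y.out) =
      coeMat δ * Periods.tRep q (none : Option (ZMod q)) := by
    rw [coeMat_mul, ← mul_assoc, h1, hδ, coeMat_mul, mul_assoc, mul_assoc]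
    congr 1
    rw [← coeMat_inv_mul ((Periods.tCorr M hq hqM).move ((y.out)⁻¹) none)
      (Periods.tRep q (cosetOption hq hqM y)), ← h2, mul_assoc, mul_assoc, ← coeMat_mul,
      inv_mul_cancel, coeMat_one, mul_one]
  have h10 := congrFun (congrFun he 1) 0
  rw [tRep_none_eq] at h10
  simp [Matrix.mul_apply, Fin.sum_univ_two, coeMat] at h10
  refine out_inv_mul_mem (Gamma0_mem.mpr ((ZMod.intCast_zmod_eq_zero_iff_dvd _ _).mpr ?_))
  obtain ⟨c, hc⟩ := (ZMod.intCast_zmod_eq_zero_iff_dvd _ _).mp (Gamma0_mem.mp δ.2)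
  refine ⟨c, ?_⟩
  push_cast
  simp only [hc] at h10
  simp [Matrix.mul_apply, Fin.sum_univ_two]
  rw [h10]
  ring

theorem mk_target (γ : Gamma0 M) :
    (Periods.tCorr M hq hqM).target γ none =
      cosetOption hq hqM ((γ⁻¹ : Gamma0 M) : TrPts M (M * q)) := by
  set y : TrPts M (M * q) := ((γ⁻¹ : Gamma0 M) : TrPts M (M * q)) with hy
  have hmem : γ * y.out ∈ (Gamma0 (M * q)).subgroupOf (Gamma0 M) := by
    have := QuotientGroup.eq.mp
      (show ((γ⁻¹ : Gamma0 M) : TrPts M (M * q)) = (y.out : TrPts M (M * q)) by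
        rw [QuotientGroup.out_eq'])
    simpa using this
  set ε : Gamma0 (M * q) := ⟨((γ * y.out : Gamma0 M) : SL(2, ℤ)), Subgroup.mem_subgroupOf.mp hmem⟩
  refine ((Periods.tCorr M hq hqM).move_unique (γ := γ) (i := none)
    (δ := Ihara.degConj M q ε * (Periods.tCorr M hq hqM).move ((y.out)⁻¹) none) ?_).1
  show Periods.tRep q none * coeMat γ = coeMat (Ihara.degConj M q ε * _) *
    Periods.tRep q (cosetOption hq hqM y)
  have hs : Periods.tRep q none * coeMat ε =
      coeMat (Ihara.degConj M q ε) * Periods.tRep q (none : Option (ZMod q)) := conjDiagMat_spec ε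
  rw [coeMat_mul (Ihara.degConj M q ε), mul_assoc (coeMat (Ihara.degConj M q ε)),
    ← diag_mul_out_inv, ← mul_assoc, ← hs, mul_assoc]
  congr 1
  show coeMat γ = coeMat (γ * y.out) * coeMat ((y.out)⁻¹)
  rw [← coeMat_mul, mul_inv_cancel_right]

theorem cosetOption_surjective : Function.Surjective (cosetOption (M := M) hq hqM) := by
  intro i
  suffices hγ : ∃ γ : Gamma0 M, (Periods.tCorr M hq hqM).target γ none = i by
    obtain ⟨γ, rfl⟩ := hγ
    exact ⟨_, (mk_target hq hqM γ).symm⟩
  cases i with
  | none => exact ⟨1, ((Periods.tCorr M hq hqM).move_one _).1⟩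
  | some j =>
    have hcop : IsCoprime (q : ℤ) (M : ℤ) :=
      Int.isCoprime_iff_gcd_eq_one.mpr (by simpa [Int.gcd] using hq.coprime_iff_not_dvd.mpr hqM)
    set δ : ℤ := (j.val : ℤ) * M + q with hδ
    obtain ⟨s, t, hst⟩ : IsCoprime δ (M : ℤ) := by
      rw [hδ, add_comm]
      exact hcop.add_mul_right_left _
    let γ : Gamma0 M := ⟨⟨!![s, -t; M, δ], by rw [Matrix.det_fin_two_of]; linear_combination hst⟩,
      Gamma0_mem.mpr (by simp)⟩
    let δ' : Gamma0 M := ⟨⟨!![q * s, -(s * j.val) - t; M, 1], by
      rw [Matrix.det_fin_two_of]; linear_combination hst + s * hδ⟩,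
      Gamma0_mem.mpr (by simp)⟩
    refine ⟨γ, ((Periods.tCorr M hq hqM).move_unique (γ := γ) (i := none) (δ := δ') ?_).1⟩
    show Periods.tRep q none * _ = _ * Periods.tRep q (some j)
    rw [tRep_none_eq, tRep_some_eq]
    ext a b
    fin_cases a <;> fin_cases b <;>
      simp [γ, δ', Matrix.mul_apply, Fin.sum_univ_two, -ZMod.natCast_val]
    · ring
    · linear_combination hδ

/-- The cosets correspond to the representatives of `T_q`. -/
noncomputable def cosetEquiv : TrPts M (M * q) ≃ Option (ZMod q) :=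
  Equiv.ofBijective _ ⟨cosetOption_injective hq hqM, cosetOption_surjective hq hqM⟩

include hq hqM in
theorem card_trPts [Fintype (TrPts M (M * q))] : Fintype.card (TrPts M (M * q)) = q + 1 := by
  rw [Fintype.card_congr (cosetEquiv hq hqM)]
  simp

variable {A : Type*} [AddCommGroup A] [Module Λ A] [NeZero (M * q)]

/-- The trace of the first degeneracy map is multiplication by the index. -/
theorem trace_degI (hq : q.Prime) (hqM : ¬ q ∣ M) (x : H1 (levelChar h θ) A) :
    trace h (h.mul_right q) θ A (degI h (h.mul_right q) θ A (dvd_mul_right M q) x) =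
      (q + 1) • x := by
  let : Fintype (TrPts M (M * q)) := Fintype.ofFinite _
  let C : CrossCorr (levelChar h θ) (levelChar h θ) (Unit × TrPts M (M * q)) :=
    const (gamma0_le_of_dvd dvd_rfl) (levelChar_inclusion h h θ dvd_rfl) 1 one_ne_zero (1 : Λ) (fun γ i ↦ (i.1, γ⁻¹ • i.2))
      (fun i ↦ by simp) (fun γ η i ↦ by simp [mul_smul])
  rw [trace, degI, ← comp_onH1,
    C.onH1_eq (comp (trCross h (h.mul_right q) θ) (inclCross h (h.mul_right q) θ (dvd_mul_right M q)))
      (Equiv.refl _) (fun i ↦ (i.2.out)⁻¹) (fun i ↦ ?_) (fun i ↦ ?_) (fun γ i ↦ rfl)]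
  · induction x using Submodule.Quotient.induction_on with
    | H f =>
      rw [onH1_mk, ← Submodule.Quotient.mk_smul]
      congr 1
      refine Subtype.ext (funext fun γ ↦ ?_)
      simp only [C]
      rw [const_apply, Submodule.coe_smul_of_tower, Pi.smul_apply, one_smul]
      simp only [Fintype.card_prod, Fintype.card_unit, one_mul, card_trPts hq hqM]
      rfl
  · simp [CrossCorr.comp, inclCross, trCross, CrossCorr.ofDelta, C, const]
  · simp only [CrossCorr.comp, inclCross, trCross, CrossCorr.ofDelta, C, const, Equiv.refl_apply,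
      levelChar_apply]
    rw [inv_one, map_one, one_mul, ← map_mul, inv_mul_cancel, map_one]

/-- The trace of the second degeneracy map is `T_q`. -/
theorem trace_degD (x : H1 (levelChar h θ) A) :
    trace h (h.mul_right q) θ A
        (degD h (h.mul_right q) θ A (coprime_cond hq hqM h) dvd_rfl x) =
      heckeT h θ A hq hqM x := by
  let : Fintype (TrPts M (M * q)) := Fintype.ofFinite _
  rw [trace, degD, heckeT, ← comp_onH1]
  refine LinearMap.congr_fun (IsDelta.onH1_eq (isDelta_tCross h θ hq hqM) (sep_tCross h θ hq hqM)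
    (IsDelta.comp (isDelta_trCross h (h.mul_right q) θ) (isDelta_degCross h _ θ _ dvd_rfl))
    ((Equiv.punitProd _).trans (cosetEquiv hq hqM))
    (fun i ↦ (Periods.tCorr M hq hqM).move ((i.2.out)⁻¹) none) fun i ↦ ?_) x
  exact diag_mul_out_inv hq hqM i.2

omit [NeZero (M * q)] in
/-- `T_q` is `U_q` plus the second degeneracy map. -/
theorem degI_heckeT_self (x : H1 (levelChar h θ) A) :
    degI h (h.mul_right q) θ A (dvd_mul_right M q) (heckeT h θ A hq hqM x) =
      heckeU (h.mul_right q) θ A (dvd_mul_left q M)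
          (degI h (h.mul_right q) θ A (dvd_mul_right M q) x) +
        degD h (h.mul_right q) θ A (coprime_cond hq hqM h) dvd_rfl x := by
  induction x using Submodule.Quotient.induction_on with
  | H f =>
    simp only [degI, heckeT, heckeU, degD, onH1_mk, ← Submodule.Quotient.mk_add]
    congr 1
    refine Subtype.ext (funext fun γ ↦ ?_)
    set ιγ : Gamma0 M := Subgroup.inclusion (gamma0_le_of_dvd (dvd_mul_right M q)) γ
    have hnone : (Periods.tCorr M hq hqM).move ιγ none = Ihara.degConj M q γ :=
      ((Periods.tCorr M hq hqM).move_unique (γ := ιγ) (i := none) (j := none)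
        (δ := Ihara.degConj M q γ) (conjDiagMat_spec γ)).2
    have hsome : ∀ j : ZMod q, (Periods.tCorr M hq hqM).move ιγ (some j) =
        Subgroup.inclusion (gamma0_le_of_dvd (dvd_mul_right M q))
          ((Periods.uCorr (M * q) (dvd_mul_left q M)).move γ j) := fun j ↦
      ((Periods.tCorr M hq hqM).move_unique (γ := ιγ) (i := some j)
        (δ := Subgroup.inclusion (gamma0_le_of_dvd (dvd_mul_right M q))
          ((Periods.uCorr (M * q) (dvd_mul_left q M)).move γ j))
        (j := some ((Periods.uCorr (M * q) (dvd_mul_left q M)).target γ j))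
        ((Periods.uCorr (M * q) (dvd_mul_left q M)).move_spec γ j)).2
    simp only [Submodule.coe_add, Pi.add_apply, apply_apply, inclCross, degCross, tCross, uCross,
      CrossCorr.ofDelta, Fintype.sum_option, Finset.univ_unique, Finset.sum_singleton]
    simp only [ιγ] at hnone hsome
    simp only [show Subgroup.inclusion (gamma0_le_of_dvd dvd_rfl) γ = γ from rfl, hnone, hsome,
      tEntry, inv_one, map_one, one_smul]
    exact add_comm _ _

omit [NeZero (M * q)] in
/-- `U_q` on the image of the second degeneracy map. -/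
theorem heckeU_degD (x : H1 (levelChar h θ) A) :
    heckeU (h.mul_right q) θ A (dvd_mul_left q M)
        (degD h (h.mul_right q) θ A (coprime_cond hq hqM h) dvd_rfl x) =
      ((q : Λ) * θ (ZMod.unitOfCoprime q (coprime_cond hq hqM h))⁻¹) •
        degI h (h.mul_right q) θ A (dvd_mul_right M q) x := by
  set w : Λ := θ (ZMod.unitOfCoprime q (coprime_cond hq hqM h))⁻¹ with hw
  let U := uCross (h.mul_right q) θ (dvd_mul_left q M)
  let C : CrossCorr (levelChar h θ) (levelChar (h.mul_right q) θ) (Unit × ZMod q) :=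
    const (gamma0_le_of_dvd (dvd_mul_right M q))
      (levelChar_inclusion h (h.mul_right q) θ (dvd_mul_right M q)) (q : ℤ)
      (Int.natCast_ne_zero.mpr (NeZero.ne q)) w (fun γ i ↦ (i.1, U.target γ i.2))
      (fun i ↦ by simp [U.target_one]) (fun γ η i ↦ by simp [U.target_mul])
  rw [heckeU, degD, degI, ← comp_onH1,
    C.onH1_eq (comp U (degCross h (h.mul_right q) θ (coprime_cond hq hqM h) dvd_rfl))
      (Equiv.refl _) (fun i ↦ shiftLevel M (i.2.val : ℤ)) (fun i ↦ ?_) (fun i ↦ ?_)
      (fun γ i ↦ rfl)]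
  · induction x using Submodule.Quotient.induction_on with
    | H f =>
      simp only [onH1_mk, ← Submodule.Quotient.mk_smul]
      congr 1
      refine Subtype.ext (funext fun γ ↦ ?_)
      simp only [C]
      rw [const_apply, Submodule.coe_smul, Pi.smul_apply, apply_apply]
      simp [inclCross, CrossCorr.ofDelta, mul_smul, ← Nat.cast_smul_eq_nsmul Λ]
  · ext a b
    fin_cases a <;> fin_cases b <;>
      simp [CrossCorr.comp, degCross, uCross, U, CrossCorr.ofDelta, C, const, Periods.upperRep,
        coeMat_shiftLevel, Matrix.mul_apply, Matrix.natCast_apply,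
        -ZMod.natCast_val]
    ring
  · have e1 : aUnit h (shiftLevel M (i.2.val : ℤ)) = 1 :=
      Units.ext (by simp [shiftLevel, Periods.shiftGamma0])
    simp [CrossCorr.comp, degCross, uCross, U, CrossCorr.ofDelta, C, const, levelChar_apply, e1, hw,
      -ZMod.natCast_val]

end FermatAgent.RTLift.Modules
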